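import Mathlib

/-!
# S14 / N1 (helper839): tent partition of unity on `ι → ℝ`
-/

set_option autoImplicit false

namespace Fermat.Agent.S14.H839

/-- The tent function `t ↦ max 0 (1 - |t|)`. -/
noncomputable def tent (t : ℝ) : ℝ := max 0 (1 - |t|)

lemma tent_nonneg (t : ℝ) : 0 ≤ tent t := le_max_left _ _

lemma tent_le_one (t : ℝ) : tent t ≤ 1 := by
  unfold tent
  exact max_le zero_le_one (by linarith [abs_nonneg t])

lemma tent_eq_zero {t : ℝ} (h : 1 ≤ |t|) : tent t = 0 := by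
  unfold tent
  exact max_eq_left (by linarith)

lemma abs_lt_one_of_tent_ne_zero {t : ℝ} (h : tent t ≠ 0) : |t| < 1 := by
  by_contra h'
  exact h (tent_eq_zero (not_lt.mp h'))

lemma tent_of_abs_le {t : ℝ} (h : |t| ≤ 1) : tent t = 1 - |t| := by
  unfold tent
  exact max_eq_right (by linarith)

lemma abs_tent_sub_tent_le (t t' : ℝ) : |tent t - tent t'| ≤ |t - t'| := by
  unfold tent
  calc |max 0 (1 - |t|) - max 0 (1 - |t'|)| ≤ |(1 - |t|) - (1 - |t'|)| := by
        simpa [max_comm] using abs_max_sub_max_le_abs (1 - |t|) (1 - |t'|) 0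
    _ = |(|t'| - |t|)| := by ring_nf
    _ ≤ |t' - t| := abs_abs_sub_abs_le_abs_sub t' t
    _ = |t - t'| := abs_sub_comm _ _


/-- support of `k ↦ tent (t + k)` -/
lemma tent_add_int_eq_zero {t : ℝ} {k : ℤ} (h1 : k ≠ -⌊t⌋) (h2 : k ≠ -⌊t⌋ - 1) :
    tent (t + k) = 0 := by
  apply tent_eq_zero
  have hfl := Int.floor_le t
  have hlt := Int.lt_floor_add_one t
  rcases lt_or_gt_of_ne h1 with h | h
  · -- k < -⌊t⌋, so k ≤ -⌊t⌋ - 1, and k ≠ -⌊t⌋ - 1 so k ≤ -⌊t⌋ - 2
    have hk : k ≤ -⌊t⌋ - 2 := by omega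
    have : (k : ℝ) ≤ -(⌊t⌋ : ℝ) - 2 := by exact_mod_cast hk
    rw [le_abs]
    right
    linarith
  · have hk : -⌊t⌋ + 1 ≤ k := by omega
    have : -(⌊t⌋ : ℝ) + 1 ≤ (k : ℝ) := by exact_mod_cast hk
    rw [le_abs]
    left
    linarith

lemma hasSum_tent_add_int (t : ℝ) : HasSum (fun k : ℤ => tent (t + k)) 1 := by
  have hfl := Int.floor_le t
  have hlt := Int.lt_floor_add_one t
  have hne : (-⌊t⌋ : ℤ) ≠ -⌊t⌋ - 1 := by omega
  have h : HasSum (fun k : ℤ => tent (t + k))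
      (∑ k ∈ ({-⌊t⌋, -⌊t⌋ - 1} : Finset ℤ), tent (t + k)) :=
    hasSum_sum_of_ne_finset_zero (by
      intro k hk
      simp only [Finset.mem_insert, Finset.mem_singleton, not_or] at hk
      exact tent_add_int_eq_zero hk.1 hk.2)
  rw [Finset.sum_pair hne] at h
  convert h using 1
  have e1 : tent (t + ((-⌊t⌋ : ℤ) : ℝ)) = 1 - (t - ⌊t⌋) := by
    rw [tent_of_abs_le]
    · push_cast
      rw [abs_of_nonneg (by linarith)]
      ring
    · push_cast
      rw [abs_le]
      constructor <;> linarith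
  have e2 : tent (t + ((-⌊t⌋ - 1 : ℤ) : ℝ)) = t - ⌊t⌋ := by
    rw [tent_of_abs_le]
    · push_cast
      rw [abs_of_nonpos (by linarith)]
      ring
    · push_cast
      rw [abs_le]
      constructor <;> linarith
  rw [e1, e2]
  ring

variable {ι : Type*} [Fintype ι]

/-- The product tent function on `ι → ℝ`. -/
noncomputable def tentPi (v : ι → ℝ) : ℝ := ∏ i, tent (v i)

lemma tentPi_nonneg (v : ι → ℝ) : 0 ≤ tentPi v :=
  Finset.prod_nonneg fun i _ => tent_nonneg (v i)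

lemma tentPi_le_one (v : ι → ℝ) : tentPi v ≤ 1 :=
  Finset.prod_le_one (fun i _ => tent_nonneg (v i)) (fun i _ => tent_le_one (v i))

lemma abs_lt_one_of_tentPi_ne_zero {v : ι → ℝ} (h : tentPi v ≠ 0) (i : ι) : |v i| < 1 := by
  apply abs_lt_one_of_tent_ne_zero
  intro h0
  exact h (Finset.prod_eq_zero (Finset.mem_univ i) h0)

/-- products of numbers in `[0,1]` are 1-Lipschitz in the `ℓ¹` sense -/
lemma abs_prod_sub_prod_le_sum {ι : Type*} (s : Finset ι) (a b : ι → ℝ)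
    (ha : ∀ i ∈ s, 0 ≤ a i ∧ a i ≤ 1) (hb : ∀ i ∈ s, 0 ≤ b i ∧ b i ≤ 1) :
    |∏ i ∈ s, a i - ∏ i ∈ s, b i| ≤ ∑ i ∈ s, |a i - b i| := by
  classical
  induction s using Finset.induction_on with
  | empty => simp
  | insert j s hj ih =>
    rw [Finset.prod_insert hj, Finset.prod_insert hj, Finset.sum_insert hj]
    have ha' : ∀ i ∈ s, 0 ≤ a i ∧ a i ≤ 1 := fun i hi => ha i (Finset.mem_insert_of_mem hi)
    have hb' : ∀ i ∈ s, 0 ≤ b i ∧ b i ≤ 1 := fun i hi => hb i (Finset.mem_insert_of_mem hi)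
    have hA0 : 0 ≤ ∏ i ∈ s, a i := Finset.prod_nonneg fun i hi => (ha' i hi).1
    have hA1 : ∏ i ∈ s, a i ≤ 1 :=
      Finset.prod_le_one (fun i hi => (ha' i hi).1) (fun i hi => (ha' i hi).2)
    have hbj := hb j (Finset.mem_insert_self j s)
    have key : a j * ∏ i ∈ s, a i - b j * ∏ i ∈ s, b i =
        (a j - b j) * ∏ i ∈ s, a i + b j * (∏ i ∈ s, a i - ∏ i ∈ s, b i) := by ring
    rw [key]
    calc |(a j - b j) * ∏ i ∈ s, a i + b j * (∏ i ∈ s, a i - ∏ i ∈ s, b i)|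
        ≤ |(a j - b j) * ∏ i ∈ s, a i| + |b j * (∏ i ∈ s, a i - ∏ i ∈ s, b i)| := abs_add_le _ _
      _ = |a j - b j| * (∏ i ∈ s, a i) + b j * |∏ i ∈ s, a i - ∏ i ∈ s, b i| := by
          rw [abs_mul, abs_mul, abs_of_nonneg hA0, abs_of_nonneg hbj.1]
      _ ≤ |a j - b j| * 1 + 1 * ∑ i ∈ s, |a i - b i| := by
          gcongr
          · exact hbj.2
          · exact ih ha' hb'
      _ = |a j - b j| + ∑ i ∈ s, |a i - b i| := by ring

lemma abs_tentPi_sub_tentPi_le (v v' : ι → ℝ) :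
    |tentPi v - tentPi v'| ≤ ∑ i, |v i - v' i| := by
  unfold tentPi
  refine (abs_prod_sub_prod_le_sum Finset.univ _ _ (fun i _ => ⟨tent_nonneg _, tent_le_one _⟩)
    (fun i _ => ⟨tent_nonneg _, tent_le_one _⟩)).trans ?_
  exact Finset.sum_le_sum fun i _ => abs_tent_sub_tent_le _ _

/-- The integer translates of the product tent function form a partition of unity. -/
lemma hasSum_tentPi_add_int [DecidableEq ι] (v : ι → ℝ) :
    HasSum (fun k : ι → ℤ => tentPi (fun i => v i + k i)) 1 := by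
  classical
  let S : ι → Finset ℤ := fun i => {-⌊v i⌋, -⌊v i⌋ - 1}
  have h : HasSum (fun k : ι → ℤ => tentPi (fun i => v i + k i))
      (∑ k ∈ Fintype.piFinset S, tentPi (fun i => v i + k i)) :=
    hasSum_sum_of_ne_finset_zero (by
      intro k hk
      rw [Fintype.mem_piFinset] at hk
      push Not at hk
      obtain ⟨i, hi⟩ := hk
      simp only [S, Finset.mem_insert, Finset.mem_singleton, not_or] at hi
      exact Finset.prod_eq_zero (Finset.mem_univ i) (tent_add_int_eq_zero hi.1 hi.2))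
  convert h using 1
  unfold tentPi
  have hps := Finset.prod_univ_sum S (fun i (k : ℤ) => tent (v i + k))
  simp only [] at hps ⊢
  rw [← hps]
  symm
  apply Finset.prod_eq_one
  intro i _
  have hne : (-⌊v i⌋ : ℤ) ≠ -⌊v i⌋ - 1 := by omega
  have h1 := hasSum_tent_add_int (v i)
  have h2 : HasSum (fun k : ℤ => tent (v i + k)) (∑ k ∈ S i, tent (v i + k)) :=
    hasSum_sum_of_ne_finset_zero (by
      intro k hk
      simp only [S, Finset.mem_insert, Finset.mem_singleton, not_or] at hk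
      exact tent_add_int_eq_zero hk.1 hk.2)
  exact h2.unique h1

end Fermat.Agent.S14.H839
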