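import Mathlib
import Fermat.Agent.S14.H839.Tent

/-!
# S14 / N1 (helper839): the cutoff function on the mixed space

`cutoff K x = tentPi (coordinates of logMap x in the basis of the unit lattice)`.
For `x` of nonzero norm, `∑ u : (𝓞 K)ˣ, cutoff K (u • x) = torsionOrder K`.
-/

set_option autoImplicit false

open NumberField NumberField.mixedEmbedding NumberField.Units
  NumberField.Units.dirichletUnitTheorem Module

namespace Fermat.Agent.S14.H839

variable (K : Type*) [Field K] [NumberField K]

open scoped Classical in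
/-- The real basis of `logSpace K` coming from the `ℤ`-basis of the unit lattice. -/
noncomputable def logBasis : Basis (Fin (rank K)) ℝ (logSpace K) :=
  (basisUnitLattice K).ofZLatticeBasis ℝ (unitLattice K)

/-- Coordinates of `logMap x` in `logBasis`. -/
noncomputable def logCoord (x : mixedSpace K) : Fin (rank K) → ℝ :=
  (logBasis K).equivFun (logMap x)

/-- The cutoff function. -/
noncomputable def cutoff (x : mixedSpace K) : ℝ := tentPi (logCoord K x)

lemma cutoff_nonneg (x : mixedSpace K) : 0 ≤ cutoff K x := tentPi_nonneg _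

lemma cutoff_le_one (x : mixedSpace K) : cutoff K x ≤ 1 := tentPi_le_one _

/-- the unit attached to a torsion element and exponents -/
noncomputable def unitOfPair (p : torsion K × (Fin (rank K) → ℤ)) : (𝓞 K)ˣ :=
  (p.1 : (𝓞 K)ˣ) * ∏ i, (fundSystem K i) ^ (p.2 i)

lemma unitOfPair_bijective : Function.Bijective (unitOfPair K) := by
  constructor
  · intro p q h
    obtain ⟨r, -, hr⟩ := exist_unique_eq_mul_prod K (unitOfPair K p)
    rw [hr p rfl, hr q h]
  · intro u
    obtain ⟨r, hr, -⟩ := exist_unique_eq_mul_prod K u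
    exact ⟨r, hr.symm⟩

/-- `torsion × ℤ^r ≃ units` -/
noncomputable def unitEquiv : torsion K × (Fin (rank K) → ℤ) ≃ (𝓞 K)ˣ :=
  Equiv.ofBijective (unitOfPair K) (unitOfPair_bijective K)

lemma logEmbedding_unitOfPair (p : torsion K × (Fin (rank K) → ℤ)) :
    logEmbedding K (Additive.ofMul (unitOfPair K p)) =
      ∑ i, (p.2 i : ℝ) • (logBasis K i) := by
  unfold unitOfPair
  rw [ofMul_mul, map_add, ofMul_prod, map_sum]
  have h0 : logEmbedding K (Additive.ofMul (p.1 : (𝓞 K)ˣ)) = 0 := by
    rw [logEmbedding_eq_zero_iff]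
    exact p.1.2
  rw [h0, zero_add]
  refine Finset.sum_congr rfl fun i _ => ?_
  rw [ofMul_zpow, map_zsmul, logEmbedding_fundSystem, logBasis, Basis.ofZLatticeBasis_apply]
  exact (Int.cast_smul_eq_zsmul ℝ _ _).symm

lemma logCoord_unit_smul (p : torsion K × (Fin (rank K) → ℤ)) {x : mixedSpace K}
    (hx : mixedEmbedding.norm x ≠ 0) :
    logCoord K (unitOfPair K p • x) = fun i => logCoord K x i + (p.2 i : ℝ) := by
  unfold logCoord
  rw [logMap_unit_smul _ hx, map_add, logEmbedding_unitOfPair]
  ext i
  simp only [Pi.add_apply, map_sum, map_smul, Basis.equivFun_self, Finset.sum_apply,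
    Pi.smul_apply, smul_eq_mul, mul_ite, mul_one, mul_zero, Finset.sum_ite_eq',
    Finset.mem_univ, if_true]
  ring

lemma hasSum_prod_snd_of_finite {α β : Type*} [Finite α] {g : β → ℝ} {c : ℝ}
    (hg : ∀ b, 0 ≤ g b) (h : HasSum g c) :
    HasSum (fun p : α × β => g p.2) (Nat.card α * c) := by
  have := Fintype.ofFinite α
  have h1 : HasSum (fun _ : α => (1 : ℝ)) (Nat.card α) := by
    convert hasSum_fintype (fun _ : α => (1 : ℝ)) using 1
    simp [Nat.card_eq_fintype_card]
  have hs : Summable fun p : α × β => (1 : ℝ) * g p.2 :=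
    Summable.mul_of_nonneg h1.summable h.summable (fun _ => zero_le_one) hg
  have := HasSum.mul h1 h hs
  simpa using this

/-- The unit translates of the cutoff function add up to `torsionOrder K`. -/
theorem hasSum_cutoff_unit_smul {x : mixedSpace K} (hx : mixedEmbedding.norm x ≠ 0) :
    HasSum (fun u : (𝓞 K)ˣ => cutoff K (u • x)) (torsionOrder K) := by
  classical
  rw [← (unitEquiv K).hasSum_iff]
  have h1 := hasSum_tentPi_add_int (logCoord K x)
  have h2 := hasSum_prod_snd_of_finite (α := torsion K) (fun k => tentPi_nonneg _) h1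
  have hcard : (Nat.card (torsion K) : ℝ) * 1 = torsionOrder K := by
    rw [mul_one, torsionOrder]
  rw [hcard] at h2
  convert h2 using 2 with p
  simp only [Function.comp_apply, unitEquiv, Equiv.ofBijective_apply, cutoff]
  rw [logCoord_unit_smul K p hx]

end Fermat.Agent.S14.H839
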