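import Mathlib
import Fermat.Agent.S14.H839.Cutoff

/-!
# S14 / N1 (helper839): analytic bounds for the cutoff function
-/

set_option autoImplicit false

open NumberField NumberField.mixedEmbedding NumberField.Units
  NumberField.Units.dirichletUnitTheorem NumberField.InfinitePlace Module

namespace Fermat.Agent.S14.H839

variable (K : Type*) [Field K] [NumberField K]

open scoped Classical

/-- normalized logarithmic coordinate at any infinite place -/
noncomputable def ell (x : mixedSpace K) (w : InfinitePlace K) : ℝ :=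
  Real.log (normAtPlace w x) - Real.log (mixedEmbedding.norm x) * (finrank ℚ K : ℝ)⁻¹

lemma logMap_eq_mult_mul_ell (x : mixedSpace K) (w : {w : InfinitePlace K // w ≠ w₀}) :
    logMap x w = mult w.val * ell K x w.val := rfl

lemma finrank_pos_real : (0 : ℝ) < (finrank ℚ K : ℝ) := Nat.cast_pos.mpr finrank_pos

lemma log_norm_eq_sum {x : mixedSpace K} (hx : mixedEmbedding.norm x ≠ 0) :
    Real.log (mixedEmbedding.norm x) = ∑ w, (mult w : ℝ) * Real.log (normAtPlace w x) := by
  rw [mixedEmbedding.norm_apply, Real.log_prod]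
  · refine Finset.sum_congr rfl fun w _ => ?_
    rw [Real.log_pow]
  · intro w _
    exact pow_ne_zero _ (mixedEmbedding.norm_ne_zero_iff.mp hx w)

lemma sum_mult_mul_ell {x : mixedSpace K} (hx : mixedEmbedding.norm x ≠ 0) :
    ∑ w, (mult w : ℝ) * ell K x w = 0 := by
  unfold ell
  simp_rw [mul_sub]
  rw [Finset.sum_sub_distrib, ← log_norm_eq_sum K hx]
  simp_rw [← mul_assoc, mul_comm (mult _ : ℝ) (Real.log _), mul_assoc]
  rw [← Finset.mul_sum, ← Finset.sum_mul, ← Nat.cast_sum, sum_mult_eq,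
    mul_inv_cancel₀ (finrank_pos_real K).ne', mul_one, sub_self]

/-- bound for `‖logMap x‖` on the support of the cutoff -/
noncomputable def M₀ : ℝ := ∑ i, ‖logBasis K i‖

lemma M₀_nonneg : 0 ≤ M₀ K := Finset.sum_nonneg fun _ _ => norm_nonneg _

lemma norm_logMap_le_of_cutoff_ne_zero {x : mixedSpace K} (h : cutoff K x ≠ 0) :
    ‖logMap x‖ ≤ M₀ K := by
  have h1 : ∀ i, |logCoord K x i| < 1 := fun i => abs_lt_one_of_tentPi_ne_zero h i
  have h2 : logMap x = ∑ i, (logCoord K x i) • logBasis K i := by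
    unfold logCoord
    exact ((logBasis K).sum_equivFun (logMap x)).symm
  rw [h2]
  refine (norm_sum_le _ _).trans (Finset.sum_le_sum fun i _ => ?_)
  rw [_root_.norm_smul, Real.norm_eq_abs]
  exact mul_le_of_le_one_left (norm_nonneg _) (h1 i).le

/-- the bound for all normalized logarithmic coordinates -/
noncomputable def Mbd : ℝ := (Fintype.card (InfinitePlace K) : ℝ) * M₀ K

lemma Mbd_nonneg : 0 ≤ Mbd K := mul_nonneg (Nat.cast_nonneg _) (M₀_nonneg K)

lemma M₀_le_Mbd : M₀ K ≤ Mbd K := by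
  unfold Mbd
  have : (1 : ℝ) ≤ Fintype.card (InfinitePlace K) := by
    exact_mod_cast Fintype.card_pos
  exact le_mul_of_one_le_left (M₀_nonneg K) this

lemma abs_ell_le_of_ne {x : mixedSpace K} (h : cutoff K x ≠ 0)
    (w : InfinitePlace K) (hw : w ≠ w₀) : |ell K x w| ≤ M₀ K := by
  have h1 : |logMap x ⟨w, hw⟩| ≤ ‖logMap x‖ := by
    rw [← Real.norm_eq_abs]
    exact norm_le_pi_norm (logMap x) ⟨w, hw⟩
  rw [logMap_eq_mult_mul_ell, abs_mul, abs_of_pos (by exact_mod_cast mult_pos)] at h1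
  have h2 : |ell K x w| ≤ (mult w : ℝ) * |ell K x w| :=
    le_mul_of_one_le_left (abs_nonneg _) one_le_mult
  exact h2.trans (h1.trans (norm_logMap_le_of_cutoff_ne_zero K h))

lemma abs_ell_le {x : mixedSpace K} (hx : mixedEmbedding.norm x ≠ 0) (h : cutoff K x ≠ 0)
    (w : InfinitePlace K) : |ell K x w| ≤ Mbd K := by
  by_cases hw : w = w₀
  · subst hw
    have hs := sum_mult_mul_ell K hx
    rw [← Finset.add_sum_erase Finset.univ _ (Finset.mem_univ (w₀ : InfinitePlace K))] at hs
    have h1 : (mult (w₀ : InfinitePlace K) : ℝ) * ell K x w₀ =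
        -∑ w ∈ Finset.univ.erase (w₀ : InfinitePlace K), (mult w : ℝ) * ell K x w := by
      linarith
    have h2 : |(mult (w₀ : InfinitePlace K) : ℝ) * ell K x w₀| ≤
        ∑ w ∈ Finset.univ.erase (w₀ : InfinitePlace K), M₀ K := by
      rw [h1, abs_neg]
      refine (Finset.abs_sum_le_sum_abs _ _).trans (Finset.sum_le_sum fun w hw => ?_)
      have hw' : w ≠ w₀ := (Finset.mem_erase.mp hw).1
      have h3 : |logMap x ⟨w, hw'⟩| ≤ ‖logMap x‖ := by
        rw [← Real.norm_eq_abs]
        exact norm_le_pi_norm (logMap x) ⟨w, hw'⟩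
      rw [logMap_eq_mult_mul_ell] at h3
      exact h3.trans (norm_logMap_le_of_cutoff_ne_zero K h)
    rw [abs_mul, abs_of_pos (by exact_mod_cast mult_pos)] at h2
    have h4 : |ell K x w₀| ≤ (mult (w₀ : InfinitePlace K) : ℝ) * |ell K x w₀| :=
      le_mul_of_one_le_left (abs_nonneg _) one_le_mult
    refine h4.trans (h2.trans ?_)
    rw [Finset.sum_const, nsmul_eq_mul]
    unfold Mbd
    gcongr
    · exact M₀_nonneg K
    · exact Finset.card_le_univ _
  · exact (abs_ell_le_of_ne K h w hw).trans (M₀_le_Mbd K)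


/-- `ν x = (norm x)^(1/n)` -/
noncomputable def nu (x : mixedSpace K) : ℝ :=
  Real.exp (Real.log (mixedEmbedding.norm x) * (finrank ℚ K : ℝ)⁻¹)

lemma nu_pos (x : mixedSpace K) : 0 < nu K x := Real.exp_pos _

lemma nu_pow {x : mixedSpace K} (hx : 0 < mixedEmbedding.norm x) :
    nu K x ^ (finrank ℚ K) = mixedEmbedding.norm x := by
  unfold nu
  rw [← Real.exp_nat_mul, mul_comm, mul_assoc, inv_mul_cancel₀ (finrank_pos_real K).ne', mul_one,
    Real.exp_log hx]

lemma normAtPlace_pos_of_norm_pos {x : mixedSpace K} (hx : 0 < mixedEmbedding.norm x)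
    (w : InfinitePlace K) : 0 < normAtPlace w x :=
  lt_of_le_of_ne (normAtPlace_nonneg w x) (mixedEmbedding.norm_ne_zero_iff.mp hx.ne' w).symm

lemma normAtPlace_eq_exp_ell_mul_nu {x : mixedSpace K} (hx : 0 < mixedEmbedding.norm x)
    (w : InfinitePlace K) : normAtPlace w x = Real.exp (ell K x w) * nu K x := by
  unfold nu ell
  rw [← Real.exp_add, sub_add_cancel, Real.exp_log (normAtPlace_pos_of_norm_pos K hx w)]

lemma normAtPlace_le_norm (w : InfinitePlace K) (x : mixedSpace K) : normAtPlace w x ≤ ‖x‖ := by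
  rw [norm_eq_sup'_normAtPlace]
  exact Finset.le_sup' (fun w => normAtPlace w x) (Finset.mem_univ w)

lemma exists_normAtPlace_eq_norm (x : mixedSpace K) : ∃ w, normAtPlace w x = ‖x‖ := by
  rw [norm_eq_sup'_normAtPlace]
  obtain ⟨w, -, hw⟩ := Finset.exists_mem_eq_sup' Finset.univ_nonempty (fun w => normAtPlace w x)
  exact ⟨w, hw.symm⟩

lemma normAtPlace_le_exp_mul_nu {x : mixedSpace K} (hx : 0 < mixedEmbedding.norm x)
    (h : cutoff K x ≠ 0) (w : InfinitePlace K) :
    normAtPlace w x ≤ Real.exp (Mbd K) * nu K x := by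
  rw [normAtPlace_eq_exp_ell_mul_nu K hx w]
  gcongr
  · exact (nu_pos K x).le
  · exact (le_abs_self _).trans (abs_ell_le K hx.ne' h w)

lemma exp_neg_mul_nu_le_normAtPlace {x : mixedSpace K} (hx : 0 < mixedEmbedding.norm x)
    (h : cutoff K x ≠ 0) (w : InfinitePlace K) :
    Real.exp (-Mbd K) * nu K x ≤ normAtPlace w x := by
  rw [normAtPlace_eq_exp_ell_mul_nu K hx w]
  gcongr
  · exact (nu_pos K x).le
  · exact neg_le_of_abs_le (abs_ell_le K hx.ne' h w)

lemma norm_le_exp_mul_nu {x : mixedSpace K} (hx : 0 < mixedEmbedding.norm x)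
    (h : cutoff K x ≠ 0) : ‖x‖ ≤ Real.exp (Mbd K) * nu K x := by
  obtain ⟨w, hw⟩ := exists_normAtPlace_eq_norm K x
  rw [← hw]
  exact normAtPlace_le_exp_mul_nu K hx h w

lemma exp_neg_mul_norm_le_nu {x : mixedSpace K} (hx : 0 < mixedEmbedding.norm x)
    (h : cutoff K x ≠ 0) : Real.exp (-Mbd K) * ‖x‖ ≤ nu K x := by
  have h1 := norm_le_exp_mul_nu K hx h
  calc Real.exp (-Mbd K) * ‖x‖ ≤ Real.exp (-Mbd K) * (Real.exp (Mbd K) * nu K x) := by gcongr
    _ = nu K x := by rw [← mul_assoc, ← Real.exp_add, neg_add_cancel, Real.exp_zero, one_mul]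

/-- on the support of the cutoff all coordinates are comparable to the sup norm -/
lemma exp_neg_two_mul_norm_le_normAtPlace {x : mixedSpace K} (hx : 0 < mixedEmbedding.norm x)
    (h : cutoff K x ≠ 0) (w : InfinitePlace K) :
    Real.exp (-(2 * Mbd K)) * ‖x‖ ≤ normAtPlace w x := by
  have h1 := exp_neg_mul_nu_le_normAtPlace K hx h w
  have h2 := exp_neg_mul_norm_le_nu K hx h
  calc Real.exp (-(2 * Mbd K)) * ‖x‖ = Real.exp (-Mbd K) * (Real.exp (-Mbd K) * ‖x‖) := by
        rw [← mul_assoc, ← Real.exp_add]; ring_nf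
    _ ≤ Real.exp (-Mbd K) * nu K x := by gcongr
    _ ≤ normAtPlace w x := h1

/-- on the support of the cutoff, the norm is bounded below by a power of the sup norm -/
lemma pow_le_norm_of_cutoff_ne_zero {x : mixedSpace K} (hx : 0 < mixedEmbedding.norm x)
    (h : cutoff K x ≠ 0) :
    (Real.exp (-Mbd K) * ‖x‖) ^ (finrank ℚ K) ≤ mixedEmbedding.norm x := by
  rw [← nu_pow K hx]
  gcongr
  exact exp_neg_mul_norm_le_nu K hx h


/-! ### Lipschitz estimates -/

lemma abs_log_sub_log_le {a b m : ℝ} (hm : 0 < m) (ha : m ≤ a) (hb : m ≤ b) :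
    |Real.log b - Real.log a| ≤ |b - a| / m := by
  have ha0 : 0 < a := hm.trans_le ha
  have hb0 : 0 < b := hm.trans_le hb
  rw [abs_le]
  constructor
  · -- log a - log b ≤ (a - b)/b ≤ |b - a| / m
    have h1 : Real.log a - Real.log b ≤ a / b - 1 := by
      rw [← Real.log_div ha0.ne' hb0.ne']
      exact Real.log_le_sub_one_of_pos (div_pos ha0 hb0)
    have h2 : a / b - 1 = (a - b) / b := by field_simp
    have h3 : (a - b) / b ≤ |b - a| / m := by
      rw [abs_sub_comm]
      calc (a - b) / b ≤ |a - b| / b := by gcongr; exact le_abs_self _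
        _ ≤ |a - b| / m := by gcongr
    linarith
  · have h1 : Real.log b - Real.log a ≤ b / a - 1 := by
      rw [← Real.log_div hb0.ne' ha0.ne']
      exact Real.log_le_sub_one_of_pos (div_pos hb0 ha0)
    have h2 : b / a - 1 = (b - a) / a := by field_simp
    have h3 : (b - a) / a ≤ |b - a| / m := by
      calc (b - a) / a ≤ |b - a| / a := by gcongr; exact le_abs_self _
        _ ≤ |b - a| / m := by gcongr
    linarith

lemma abs_normAtPlace_sub_le (w : InfinitePlace K) (x y : mixedSpace K) :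
    |normAtPlace w y - normAtPlace w x| ≤ ‖y - x‖ := by
  rw [abs_le]
  constructor
  · have h := normAtPlace_add_le w y (x - y)
    rw [add_sub_cancel] at h
    have h2 : normAtPlace w (x - y) ≤ ‖y - x‖ := by
      rw [← normAtPlace_neg, neg_sub]
      exact normAtPlace_le_norm K w _
    linarith
  · have h := normAtPlace_add_le w x (y - x)
    rw [add_sub_cancel] at h
    have h2 := normAtPlace_le_norm K w (y - x)
    linarith

section lip

variable {K}
variable {x y : mixedSpace K} {m : ℝ}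

lemma abs_log_normAtPlace_sub_le (hm : 0 < m) (hxm : ∀ w, m ≤ normAtPlace w x)
    (hym : ∀ w, m ≤ normAtPlace w y) (w : InfinitePlace K) :
    |Real.log (normAtPlace w y) - Real.log (normAtPlace w x)| ≤ ‖y - x‖ / m := by
  refine (abs_log_sub_log_le hm (hxm w) (hym w)).trans ?_
  gcongr
  exact abs_normAtPlace_sub_le K w x y

lemma norm_pos_of_le_normAtPlace (hm : 0 < m) (hxm : ∀ w, m ≤ normAtPlace w x) :
    0 < mixedEmbedding.norm x := by
  refine lt_of_le_of_ne (mixedEmbedding.norm_nonneg x) (Ne.symm ?_)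
  rw [mixedEmbedding.norm_ne_zero_iff]
  intro w
  exact (hm.trans_le (hxm w)).ne'

lemma abs_log_norm_sub_le (hm : 0 < m) (hxm : ∀ w, m ≤ normAtPlace w x)
    (hym : ∀ w, m ≤ normAtPlace w y) :
    |Real.log (mixedEmbedding.norm y) - Real.log (mixedEmbedding.norm x)| ≤
      (finrank ℚ K : ℝ) * (‖y - x‖ / m) := by
  rw [log_norm_eq_sum K (norm_pos_of_le_normAtPlace hm hxm).ne',
    log_norm_eq_sum K (norm_pos_of_le_normAtPlace hm hym).ne', ← Finset.sum_sub_distrib]
  refine (Finset.abs_sum_le_sum_abs _ _).trans ?_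
  rw [← sum_mult_eq, Nat.cast_sum, Finset.sum_mul]
  refine Finset.sum_le_sum fun w _ => ?_
  rw [← mul_sub, abs_mul, abs_of_pos (by exact_mod_cast mult_pos)]
  gcongr
  exact abs_log_normAtPlace_sub_le hm hxm hym w

lemma abs_ell_sub_le (hm : 0 < m) (hxm : ∀ w, m ≤ normAtPlace w x)
    (hym : ∀ w, m ≤ normAtPlace w y) (w : InfinitePlace K) :
    |ell K y w - ell K x w| ≤ 2 * (‖y - x‖ / m) := by
  unfold ell
  have h1 := abs_log_normAtPlace_sub_le hm hxm hym w
  have h2 := abs_log_norm_sub_le hm hxm hym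
  have h3 : Real.log (normAtPlace w y) -
      Real.log (mixedEmbedding.norm y) * (finrank ℚ K : ℝ)⁻¹ -
      (Real.log (normAtPlace w x) - Real.log (mixedEmbedding.norm x) * (finrank ℚ K : ℝ)⁻¹) =
      (Real.log (normAtPlace w y) - Real.log (normAtPlace w x)) -
      (Real.log (mixedEmbedding.norm y) - Real.log (mixedEmbedding.norm x)) *
        (finrank ℚ K : ℝ)⁻¹ := by ring
  rw [h3]
  refine (abs_sub _ _).trans ?_
  rw [abs_mul, abs_of_pos (inv_pos.mpr (finrank_pos_real K))]
  have h4 : |Real.log (mixedEmbedding.norm y) - Real.log (mixedEmbedding.norm x)| *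
      (finrank ℚ K : ℝ)⁻¹ ≤ ‖y - x‖ / m := by
    rw [← div_eq_mul_inv, div_le_iff₀ (finrank_pos_real K)]
    linarith
  linarith

omit [NumberField K] in
lemma mult_le_two_real (w : InfinitePlace K) : (mult w : ℝ) ≤ 2 := by
  unfold mult
  split_ifs <;> norm_num

lemma norm_logMap_sub_le (hm : 0 < m) (hxm : ∀ w, m ≤ normAtPlace w x)
    (hym : ∀ w, m ≤ normAtPlace w y) :
    ‖logMap y - logMap x‖ ≤ 4 * (‖y - x‖ / m) := by
  have h0 : 0 ≤ ‖y - x‖ / m := div_nonneg (norm_nonneg _) hm.le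
  rw [pi_norm_le_iff_of_nonneg (by positivity)]
  intro w
  rw [Pi.sub_apply, logMap_eq_mult_mul_ell, logMap_eq_mult_mul_ell, ← mul_sub, Real.norm_eq_abs,
    abs_mul, abs_of_pos (by exact_mod_cast mult_pos)]
  have h1 := abs_ell_sub_le hm hxm hym w.val
  have h2 := mult_le_two_real w.val
  calc (mult w.val : ℝ) * |ell K y w.val - ell K x w.val|
      ≤ 2 * (2 * (‖y - x‖ / m)) := by gcongr
    _ = 4 * (‖y - x‖ / m) := by ring

end lip

/-- Lipschitz constant of the cutoff in terms of `logMap` -/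
noncomputable def L₀ : ℝ :=
  (rank K : ℝ) * ‖LinearMap.toContinuousLinearMap (logBasis K).equivFun.toLinearMap‖

lemma L₀_nonneg : 0 ≤ L₀ K := mul_nonneg (Nat.cast_nonneg _) (norm_nonneg _)

lemma abs_cutoff_sub_le (x y : mixedSpace K) :
    |cutoff K y - cutoff K x| ≤ L₀ K * ‖logMap y - logMap x‖ := by
  unfold cutoff
  refine (abs_tentPi_sub_tentPi_le _ _).trans ?_
  set T := LinearMap.toContinuousLinearMap (logBasis K).equivFun.toLinearMap with hT
  have h1 : ∀ i, |logCoord K y i - logCoord K x i| ≤ ‖T‖ * ‖logMap y - logMap x‖ := by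
    intro i
    have e : logCoord K y i - logCoord K x i = (T (logMap y - logMap x)) i := by
      simp [hT, logCoord]
    rw [e, ← Real.norm_eq_abs]
    exact (norm_le_pi_norm _ i).trans (T.le_opNorm _)
  refine (Finset.sum_le_sum fun i _ => h1 i).trans ?_
  rw [Finset.sum_const, Finset.card_univ, Fintype.card_fin, nsmul_eq_mul, L₀, mul_assoc]

end Fermat.Agent.S14.H839
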