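import Mathlib
import Fermat.Agent.S14.H839.CutoffBounds

/-!
# S14 / N1 (helper839): the difference estimate for `cutoff x * (norm x)^(-s)`
-/

set_option autoImplicit false

open NumberField NumberField.mixedEmbedding NumberField.Units
  NumberField.Units.dirichletUnitTheorem NumberField.InfinitePlace Module

namespace Fermat.Agent.S14.H839

variable (K : Type*) [Field K] [NumberField K]

open scoped Classical

lemma abs_exp_sub_one_le_mul_exp (z : ℝ) : |Real.exp z - 1| ≤ |z| * Real.exp |z| := by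
  rcases le_or_gt 0 z with hz | hz
  · rw [abs_of_nonneg hz, abs_of_nonneg (by linarith [Real.add_one_le_exp z])]
    have h1 := Real.add_one_le_exp (-z)
    have h2 : (1 - z) * Real.exp z ≤ 1 := by
      calc (1 - z) * Real.exp z ≤ Real.exp (-z) * Real.exp z := by
            gcongr
            linarith
        _ = 1 := by rw [← Real.exp_add, neg_add_cancel, Real.exp_zero]
    nlinarith
  · have h1 := Real.add_one_le_exp z
    have h3 : Real.exp z < 1 := by
      rw [← Real.exp_zero]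
      exact Real.exp_lt_exp.mpr hz
    rw [abs_of_neg (by linarith), abs_of_neg hz]
    have h2 : (1 : ℝ) ≤ Real.exp (-z) := by
      rw [← Real.exp_zero]
      exact Real.exp_le_exp.mpr (by linarith)
    nlinarith

/-- the function whose lattice sums give the partial zeta functions -/
noncomputable def Fs (s : ℝ) (x : mixedSpace K) : ℝ :=
  cutoff K x * (mixedEmbedding.norm x) ^ (-s)

lemma Fs_nonneg (s : ℝ) (x : mixedSpace K) : 0 ≤ Fs K s x :=
  mul_nonneg (cutoff_nonneg K x) (Real.rpow_nonneg (mixedEmbedding.norm_nonneg x) _)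

lemma Fs_le_one {s : ℝ} (hs : 0 ≤ s) {x : mixedSpace K} (hx : 1 ≤ mixedEmbedding.norm x) :
    Fs K s x ≤ 1 := by
  unfold Fs
  have h1 : (mixedEmbedding.norm x) ^ (-s) ≤ 1 :=
    Real.rpow_le_one_of_one_le_of_nonpos hx (by linarith)
  calc cutoff K x * (mixedEmbedding.norm x) ^ (-s) ≤ 1 * 1 := by
        gcongr
        · exact cutoff_le_one K x
    _ = 1 := one_mul 1

/-- the constant in the core estimate -/
noncomputable def C₁ : ℝ :=
  2 * Real.exp ((finrank ℚ K + 2 : ℝ) * Mbd K) * Real.exp (2 * (finrank ℚ K : ℝ)) *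
    (4 * L₀ K + 2 * (finrank ℚ K : ℝ))

lemma C₁_nonneg : 0 ≤ C₁ K := by
  unfold C₁
  have := L₀_nonneg K
  positivity

lemma norm_pos_of_one_le_norm {x : mixedSpace K} (hx : 1 ≤ mixedEmbedding.norm x) : 0 < ‖x‖ := by
  rw [norm_pos_iff]
  rintro rfl
  simp at hx
  linarith

lemma assemble_abs {cy cx Ny Nx L η E n : ℝ} (hcx0 : 0 ≤ cx) (hcx1 : cx ≤ 1) (hNy0 : 0 ≤ Ny)
    (hNx0 : 0 ≤ Nx) (hL : 0 ≤ L) (hη : 0 ≤ η) (hcut : |cy - cx| ≤ L * (4 * η))
    (hNy : Ny ≤ Nx * E) (hNd : |Ny - Nx| ≤ Nx * (2 * n * η * E)) :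
    |cy * Ny - cx * Nx| ≤ Nx * (η * (E * (4 * L + 2 * n))) := by
  have e : cy * Ny - cx * Nx = (cy - cx) * Ny + cx * (Ny - Nx) := by ring
  rw [e]
  refine (abs_add_le _ _).trans ?_
  rw [abs_mul, abs_mul, abs_of_nonneg hcx0, abs_of_nonneg hNy0]
  have hL4 : 0 ≤ L * (4 * η) := by positivity
  have t1 : |cy - cx| * Ny ≤ (L * (4 * η)) * (Nx * E) := mul_le_mul hcut hNy hNy0 hL4
  have t2 : cx * |Ny - Nx| ≤ 1 * (Nx * (2 * n * η * E)) :=
    mul_le_mul hcx1 hNd (abs_nonneg _) zero_le_one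
  calc _ ≤ (L * (4 * η)) * (Nx * E) + 1 * (Nx * (2 * n * η * E)) := add_le_add t1 t2
    _ = _ := by ring

lemma final_algebra {A B X d E L n : ℝ} (k : ℕ) (hA : A ≠ 0) (hB : B ≠ 0) (hX : X ≠ 0) :
    (A⁻¹ * X ^ k)⁻¹ * (d / (B⁻¹ * X / 2) * (E * (4 * L + 2 * n))) =
      2 * (A * B) * E * (4 * L + 2 * n) * d / (X ^ k * X) := by
  field_simp

theorem core_diff {x y : mixedSpace K} (hx : 1 ≤ mixedEmbedding.norm x) (hc : cutoff K x ≠ 0)
    (hxy : ‖y - x‖ ≤ Real.exp (-(2 * Mbd K)) / 2 * ‖x‖) {s : ℝ} (hs1 : 1 ≤ s) (hs2 : s ≤ 2) :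
    |Fs K s y - Fs K s x| ≤ C₁ K * ‖y - x‖ / ‖x‖ ^ (finrank ℚ K + 1) := by
  set n := finrank ℚ K with hn
  have hn0 : (0 : ℝ) < n := finrank_pos_real K
  have hx0 : 0 < mixedEmbedding.norm x := lt_of_lt_of_le one_pos hx
  have hxn : 0 < ‖x‖ := norm_pos_of_one_le_norm K hx
  set m := Real.exp (-(2 * Mbd K)) * ‖x‖ / 2 with hm
  have hm0 : 0 < m := by positivity
  have hxm : ∀ w, m ≤ normAtPlace w x := fun w => by
    have := exp_neg_two_mul_norm_le_normAtPlace K hx0 hc w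
    have h2 : 0 ≤ Real.exp (-(2 * Mbd K)) * ‖x‖ := by positivity
    linarith
  have hym : ∀ w, m ≤ normAtPlace w y := fun w => by
    have h1 := exp_neg_two_mul_norm_le_normAtPlace K hx0 hc w
    have h2 := abs_normAtPlace_sub_le K w x y
    have h3 := (abs_le.mp h2).1
    have h4 : ‖y - x‖ ≤ m := by rw [hm]; linarith
    rw [hm] at h4 ⊢
    linarith
  have hy0 : 0 < mixedEmbedding.norm y := norm_pos_of_le_normAtPlace hm0 hym
  set η := ‖y - x‖ / m with hη
  have hη0 : 0 ≤ η := div_nonneg (norm_nonneg _) hm0.le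
  have hη1 : η ≤ 1 := by
    rw [hη, div_le_one hm0, hm]
    linarith
  -- logarithms of norms
  set u := Real.log (mixedEmbedding.norm y) - Real.log (mixedEmbedding.norm x) with hu
  have hu1 : |u| ≤ n * η := abs_log_norm_sub_le hm0 hxm hym
  have hsu : |(-s) * u| ≤ 2 * n * η := by
    rw [abs_mul, abs_neg, abs_of_pos (by linarith)]
    calc s * |u| ≤ 2 * (n * η) := by gcongr
      _ = 2 * n * η := by ring
  have hsu2 : |(-s) * u| ≤ 2 * n := by
    calc |(-s) * u| ≤ 2 * n * η := hsu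
      _ ≤ 2 * n * 1 := by gcongr
      _ = 2 * n := mul_one _
  have hNy : (mixedEmbedding.norm y) ^ (-s) =
      (mixedEmbedding.norm x) ^ (-s) * Real.exp ((-s) * u) := by
    rw [Real.rpow_def_of_pos hy0, Real.rpow_def_of_pos hx0, ← Real.exp_add]
    congr 1
    rw [hu]
    ring
  have hNxs0 : 0 ≤ (mixedEmbedding.norm x) ^ (-s) := Real.rpow_nonneg hx0.le _
  have hexp_le : Real.exp ((-s) * u) ≤ Real.exp (2 * n) :=
    Real.exp_le_exp.mpr ((le_abs_self _).trans hsu2)
  have hNy_le : (mixedEmbedding.norm y) ^ (-s) ≤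
      (mixedEmbedding.norm x) ^ (-s) * Real.exp (2 * n) := by
    rw [hNy]
    gcongr
  have hNdiff : |(mixedEmbedding.norm y) ^ (-s) - (mixedEmbedding.norm x) ^ (-s)| ≤
      (mixedEmbedding.norm x) ^ (-s) * (2 * n * η * Real.exp (2 * n)) := by
    rw [hNy]
    have e : (mixedEmbedding.norm x) ^ (-s) * Real.exp ((-s) * u) -
        (mixedEmbedding.norm x) ^ (-s) =
        (mixedEmbedding.norm x) ^ (-s) * (Real.exp ((-s) * u) - 1) := by ring
    rw [e, abs_mul, abs_of_nonneg hNxs0]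
    gcongr
    refine (abs_exp_sub_one_le_mul_exp _).trans ?_
    gcongr
  -- cutoff difference
  have hcut : |cutoff K y - cutoff K x| ≤ L₀ K * (4 * η) :=
    (abs_cutoff_sub_le K x y).trans
      (mul_le_mul_of_nonneg_left (norm_logMap_sub_le hm0 hxm hym) (L₀_nonneg K))
  -- the norm of x
  have hNx : (mixedEmbedding.norm x) ^ (-s) ≤ ((Real.exp (-Mbd K) * ‖x‖) ^ n)⁻¹ := by
    have h1 : (mixedEmbedding.norm x) ^ (-s) ≤ (mixedEmbedding.norm x) ^ (-1 : ℝ) :=
      Real.rpow_le_rpow_of_exponent_le hx (by linarith)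
    rw [Real.rpow_neg_one] at h1
    refine h1.trans ?_
    have h2 := pow_le_norm_of_cutoff_ne_zero K hx0 hc
    have h3 : 0 < (Real.exp (-Mbd K) * ‖x‖) ^ n := by positivity
    exact inv_anti₀ h3 h2
  -- assemble
  have hL := L₀_nonneg K
  have key : |Fs K s y - Fs K s x| ≤
      (mixedEmbedding.norm x) ^ (-s) * (η * (Real.exp (2 * n) * (4 * L₀ K + 2 * n))) :=
    assemble_abs (cutoff_nonneg K x) (cutoff_le_one K x) (Real.rpow_nonneg hy0.le _) hNxs0 hL hη0
      hcut hNy_le hNdiff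
  have hfac : 0 ≤ η * (Real.exp (2 * n) * (4 * L₀ K + 2 * n)) := by positivity
  refine key.trans ((mul_le_mul_of_nonneg_right hNx hfac).trans (le_of_eq ?_))
  -- algebra
  have e1 : Real.exp ((n + 2 : ℝ) * Mbd K) =
      Real.exp ((n : ℝ) * Mbd K) * Real.exp (2 * Mbd K) := by
    rw [← Real.exp_add]; ring_nf
  have e2 : Real.exp (-Mbd K) ^ n = (Real.exp ((n : ℝ) * Mbd K))⁻¹ := by
    rw [← Real.exp_nat_mul, ← Real.exp_neg]; ring_nf
  have e3 : Real.exp (-(2 * Mbd K)) = (Real.exp (2 * Mbd K))⁻¹ := Real.exp_neg _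
  rw [hη, hm, C₁, ← hn, mul_pow, pow_succ, e1, e2, e3]
  exact final_algebra n (Real.exp_pos _).ne' (Real.exp_pos _).ne' hxn.ne'


/-- the radius constant of the difference estimate -/
noncomputable def epsD : ℝ := Real.exp (-(2 * Mbd K)) / 4

lemma epsD_pos : 0 < epsD K := by unfold epsD; positivity

lemma epsD_le : epsD K ≤ 1 / 4 := by
  unfold epsD
  have : Real.exp (-(2 * Mbd K)) ≤ 1 := by
    rw [← Real.exp_zero]
    exact Real.exp_le_exp.mpr (by linarith [Mbd_nonneg K])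
  linarith

/-- the constant of the difference estimate -/
noncomputable def CD : ℝ := C₁ K * 2 ^ (finrank ℚ K + 1)

lemma CD_nonneg : 0 ≤ CD K := mul_nonneg (C₁_nonneg K) (by positivity)

lemma C₁_le_CD : C₁ K ≤ CD K := by
  unfold CD
  exact le_mul_of_one_le_right (C₁_nonneg K) (one_le_pow₀ (by norm_num))

/-- **Difference estimate.** -/
theorem diff_bound {x y : mixedSpace K} (hx : 1 ≤ mixedEmbedding.norm x)
    (hy : 1 ≤ mixedEmbedding.norm y) (hxy : ‖y - x‖ ≤ epsD K * ‖x‖) {s : ℝ} (hs1 : 1 ≤ s)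
    (hs2 : s ≤ 2) :
    |Fs K s y - Fs K s x| ≤ CD K * ‖y - x‖ / ‖x‖ ^ (finrank ℚ K + 1) := by
  have hxn : 0 < ‖x‖ := norm_pos_of_one_le_norm K hx
  have hyn : 0 < ‖y‖ := norm_pos_of_one_le_norm K hy
  have he : 0 < Real.exp (-(2 * Mbd K)) := Real.exp_pos _
  by_cases hcx : cutoff K x = 0
  · by_cases hcy : cutoff K y = 0
    · unfold Fs
      rw [hcx, hcy, zero_mul, zero_mul, sub_zero, abs_zero]
      have := CD_nonneg K
      positivity
    · -- swap roles
      have hyx : ‖y‖ ≥ ‖x‖ / 2 := by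
        have h1 : ‖x‖ ≤ ‖y‖ + ‖y - x‖ := by
          have := norm_sub_le y (y - x)
          rwa [sub_sub_cancel] at this
        have h2 := epsD_le K
        nlinarith
      have hxy' : ‖x - y‖ ≤ Real.exp (-(2 * Mbd K)) / 2 * ‖y‖ := by
        rw [norm_sub_rev]
        refine hxy.trans ?_
        unfold epsD
        nlinarith
      have h := core_diff K hy hcy hxy' hs1 hs2
      rw [abs_sub_comm, norm_sub_rev] at h
      refine h.trans ?_
      unfold CD
      rw [div_le_div_iff₀ (by positivity) (by positivity)]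
      have h3 : ‖x‖ ^ (finrank ℚ K + 1) ≤ 2 ^ (finrank ℚ K + 1) * ‖y‖ ^ (finrank ℚ K + 1) := by
        rw [← mul_pow]
        gcongr
        linarith
      have hC := C₁_nonneg K
      have hd := norm_nonneg (y - x)
      calc C₁ K * ‖y - x‖ * ‖x‖ ^ (finrank ℚ K + 1)
          ≤ C₁ K * ‖y - x‖ * (2 ^ (finrank ℚ K + 1) * ‖y‖ ^ (finrank ℚ K + 1)) := by gcongr
        _ = C₁ K * 2 ^ (finrank ℚ K + 1) * ‖y - x‖ * ‖y‖ ^ (finrank ℚ K + 1) := by ring
  · have hxy' : ‖y - x‖ ≤ Real.exp (-(2 * Mbd K)) / 2 * ‖x‖ := by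
      refine hxy.trans ?_
      unfold epsD
      nlinarith
    refine (core_diff K hx hcx hxy' hs1 hs2).trans ?_
    exact div_le_div_of_nonneg_right
      (mul_le_mul_of_nonneg_right (C₁_le_CD K) (norm_nonneg _)) (pow_nonneg hxn.le _)

/-- the constant in the decay estimate -/
noncomputable def CE : ℝ := Real.exp (2 * (finrank ℚ K : ℝ) * Mbd K)

lemma CE_pos : 0 < CE K := Real.exp_pos _

/-- **Decay estimate.** -/
theorem Fs_le {x : mixedSpace K} (hx : 0 < mixedEmbedding.norm x) {s : ℝ} (hs1 : 1 ≤ s)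
    (hs2 : s ≤ 2) :
    Fs K s x ≤ CE K * ‖x‖ ^ (-((finrank ℚ K : ℝ) * s)) := by
  have hxn : 0 < ‖x‖ := by
    rw [norm_pos_iff]
    rintro rfl
    simp at hx
  by_cases hc : cutoff K x = 0
  · unfold Fs
    rw [hc, zero_mul]
    have := CE_pos K
    positivity
  · have h1 := pow_le_norm_of_cutoff_ne_zero K hx hc
    have hB : 0 < Real.exp (-Mbd K) * ‖x‖ := by positivity
    have h2 : (mixedEmbedding.norm x) ^ (-s) ≤
        ((Real.exp (-Mbd K) * ‖x‖) ^ (finrank ℚ K)) ^ (-s) :=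
      Real.rpow_le_rpow_of_nonpos (by positivity) h1 (by linarith)
    have h3 : ((Real.exp (-Mbd K) * ‖x‖) ^ (finrank ℚ K)) ^ (-s) =
        Real.exp ((finrank ℚ K : ℝ) * s * Mbd K) * ‖x‖ ^ (-((finrank ℚ K : ℝ) * s)) := by
      rw [← Real.rpow_natCast, ← Real.rpow_mul hB.le, Real.mul_rpow (Real.exp_pos _).le hxn.le,
        ← Real.exp_mul]
      congr 2 <;> ring
    have h4 : Real.exp ((finrank ℚ K : ℝ) * s * Mbd K) ≤ CE K := by
      unfold CE
      apply Real.exp_le_exp.mpr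
      have hM := Mbd_nonneg K
      have hn := finrank_pos_real K
      have : (finrank ℚ K : ℝ) * s ≤ 2 * (finrank ℚ K : ℝ) := by nlinarith
      exact mul_le_mul_of_nonneg_right this hM
    unfold Fs
    calc cutoff K x * (mixedEmbedding.norm x) ^ (-s)
        ≤ 1 * (Real.exp ((finrank ℚ K : ℝ) * s * Mbd K) *
            ‖x‖ ^ (-((finrank ℚ K : ℝ) * s))) := by
          rw [← h3]
          exact mul_le_mul (cutoff_le_one K x) h2 (Real.rpow_nonneg hx.le _) zero_le_one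
      _ ≤ CE K * ‖x‖ ^ (-((finrank ℚ K : ℝ) * s)) := by
          rw [one_mul]
          gcongr

end Fermat.Agent.S14.H839
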