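import Mathlib

/-!
# S14 / N1 (helper839): an explicit bound for `∑ k^(-(1+δ))`
-/

set_option autoImplicit false

namespace Fermat.Agent.S14.H839

lemma rpow_telescope {δ : ℝ} (hδ : 0 < δ) {x : ℝ} (hx : 0 < x) :
    δ * (x + 1) ^ (-(1 + δ)) ≤ x ^ (-δ) - (x + 1) ^ (-δ) := by
  have hx1 : 0 < x + 1 := by linarith
  -- x^(-δ) = (x+1)^(-δ) * ((x+1)/x)^δ
  have h1 : x ^ (-δ) = (x + 1) ^ (-δ) * ((x + 1) / x) ^ δ := by
    rw [Real.div_rpow hx1.le hx.le, Real.rpow_neg hx1.le, Real.rpow_neg hx.le]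
    have : (x + 1) ^ δ ≠ 0 := (Real.rpow_pos_of_pos hx1 _).ne'
    field_simp
  have h2 : 1 + δ / (x + 1) ≤ ((x + 1) / x) ^ δ := by
    have hq : 0 < (x + 1) / x := div_pos hx1 hx
    rw [Real.rpow_def_of_pos hq]
    have h3 : 1 - ((x + 1) / x)⁻¹ ≤ Real.log ((x + 1) / x) := Real.one_sub_inv_le_log_of_pos hq
    have h4 : 1 - ((x + 1) / x)⁻¹ = 1 / (x + 1) := by field_simp; ring
    rw [h4] at h3
    have h5 : δ / (x + 1) ≤ Real.log ((x + 1) / x) * δ := by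
      have := mul_le_mul_of_nonneg_right h3 hδ.le
      calc δ / (x + 1) = 1 / (x + 1) * δ := by ring
        _ ≤ _ := this
    calc 1 + δ / (x + 1) ≤ 1 + Real.log ((x + 1) / x) * δ := by linarith
      _ ≤ Real.exp (Real.log ((x + 1) / x) * δ) := by
          linarith [Real.add_one_le_exp (Real.log ((x + 1) / x) * δ)]
  have h6 : (x + 1) ^ (-(1 + δ)) = (x + 1) ^ (-δ) / (x + 1) := by
    rw [show -(1 + δ) = -δ - 1 by ring, Real.rpow_sub_one hx1.ne']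
  rw [h1, h6]
  have hp : 0 < (x + 1) ^ (-δ) := Real.rpow_pos_of_pos hx1 _
  have : (x + 1) ^ (-δ) * (1 + δ / (x + 1)) ≤ (x + 1) ^ (-δ) * ((x + 1) / x) ^ δ :=
    mul_le_mul_of_nonneg_left h2 hp.le
  have e : δ * ((x + 1) ^ (-δ) / (x + 1)) = (x + 1) ^ (-δ) * (1 + δ / (x + 1)) - (x + 1) ^ (-δ) := by
    field_simp
    ring
  rw [e]
  linarith

lemma sum_range_rpow_le {δ : ℝ} (hδ : 0 < δ) (N : ℕ) :
    ∑ k ∈ Finset.range (N + 2), (k : ℝ) ^ (-(1 + δ)) ≤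
      1 + (1 / δ) * (1 - ((N : ℝ) + 1) ^ (-δ)) := by
  induction N with
  | zero =>
    rw [Finset.sum_range_succ, Finset.sum_range_one]
    simp only [Nat.cast_zero, Nat.cast_one, Real.one_rpow, zero_add, sub_self, mul_zero, add_zero]
    rw [Real.zero_rpow (by linarith)]
    linarith
  | succ N ih =>
    rw [Finset.sum_range_succ]
    have h := rpow_telescope hδ (x := (N : ℝ) + 1) (by positivity)
    have e : ((N + 1 + 1 : ℕ) : ℝ) = (N : ℝ) + 1 + 1 := by push_cast; ring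
    have e' : ((N + 1 : ℕ) : ℝ) = (N : ℝ) + 1 := by push_cast; ring
    rw [e, e']
    have h' : ((N : ℝ) + 1 + 1) ^ (-(1 + δ)) ≤
        (1 / δ) * (((N : ℝ) + 1) ^ (-δ) - ((N : ℝ) + 1 + 1) ^ (-δ)) := by
      rw [one_div, inv_mul_eq_div, le_div_iff₀ hδ, mul_comm]
      exact h
    calc _ ≤ 1 + (1 / δ) * (1 - ((N : ℝ) + 1) ^ (-δ)) +
          (1 / δ) * (((N : ℝ) + 1) ^ (-δ) - ((N : ℝ) + 1 + 1) ^ (-δ)) := add_le_add ih h'
      _ = _ := by ring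

/-- `∑ k^(-(1+δ)) ≤ 1 + 1/δ` -/
theorem tsum_nat_rpow_le {δ : ℝ} (hδ : 0 < δ) :
    ∑' k : ℕ, (k : ℝ) ^ (-(1 + δ)) ≤ 1 + 1 / δ := by
  apply Real.tsum_le_of_sum_range_le (fun k => Real.rpow_nonneg (Nat.cast_nonneg k) _)
  intro n
  have hmono : ∑ k ∈ Finset.range n, (k : ℝ) ^ (-(1 + δ)) ≤
      ∑ k ∈ Finset.range (n + 2), (k : ℝ) ^ (-(1 + δ)) :=
    Finset.sum_le_sum_of_subset_of_nonneg
      (Finset.range_mono (by omega)) (fun k _ _ => Real.rpow_nonneg (Nat.cast_nonneg k) _)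
  refine hmono.trans ((sum_range_rpow_le hδ n).trans ?_)
  have hp : 0 ≤ ((n : ℝ) + 1) ^ (-δ) := Real.rpow_nonneg (by positivity) _
  have : (1 / δ) * (1 - ((n : ℝ) + 1) ^ (-δ)) ≤ 1 / δ := by
    have h1 : 0 < 1 / δ := by positivity
    nlinarith
  linarith

end Fermat.Agent.S14.H839
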