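import Mathlib
import Fermat.Agent.S14.H839.Diff
import Fermat.Agent.S14.H839.PSeries

/-!
# S14 / N1 (helper839): sums over the lattice of integers
-/

set_option autoImplicit false

open NumberField NumberField.mixedEmbedding NumberField.Units
  NumberField.Units.dirichletUnitTheorem NumberField.InfinitePlace Module

namespace Fermat.Agent.S14.H839

variable (K : Type*) [Field K] [NumberField K]

open scoped Classical

/-- the embedding of the ring of integers into the mixed space -/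
noncomputable def emb (a : 𝓞 K) : mixedSpace K := mixedEmbedding K (a : K)

lemma emb_injective : Function.Injective (emb K) :=
  (mixedEmbedding_injective K).comp RingOfIntegers.coe_injective

@[simp] lemma emb_zero : emb K 0 = 0 := by simp [emb]

lemma emb_add (a b : 𝓞 K) : emb K (a + b) = emb K a + emb K b := by simp [emb]

lemma emb_sub (a b : 𝓞 K) : emb K (a - b) = emb K a - emb K b := by simp [emb]

lemma emb_eq_zero_iff {a : 𝓞 K} : emb K a = 0 ↔ a = 0 := by
  rw [← emb_zero K]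
  exact (emb_injective K).eq_iff

lemma emb_unit_mul (u : (𝓞 K)ˣ) (a : 𝓞 K) : emb K ((u : 𝓞 K) * a) = u • emb K a := by
  simp [emb, unitSMul_smul]

lemma norm_emb (a : 𝓞 K) :
    mixedEmbedding.norm (emb K a) = (Ideal.absNorm (Ideal.span {a}) : ℝ) := by
  rw [Ideal.absNorm_span_singleton, Nat.cast_natAbs, ← Rat.cast_intCast, Int.cast_abs,
    Algebra.coe_norm_int, emb, norm_eq_norm]

lemma one_le_norm_emb {a : 𝓞 K} (ha : a ≠ 0) : 1 ≤ mixedEmbedding.norm (emb K a) := by
  rw [norm_emb]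
  have h : Ideal.absNorm (Ideal.span {a}) ≠ 0 := by
    rw [Ne, Ideal.absNorm_eq_zero_iff, Ideal.span_singleton_eq_bot]
    exact ha
  exact_mod_cast Nat.one_le_iff_ne_zero.mpr h

/-- the function on integers whose sums give the partial zeta functions -/
noncomputable def G (s : ℝ) (a : 𝓞 K) : ℝ := Fs K s (emb K a)

lemma G_nonneg (s : ℝ) (a : 𝓞 K) : 0 ≤ G K s a := Fs_nonneg K s _

lemma G_zero {s : ℝ} (hs : 0 < s) : G K s 0 = 0 := by
  unfold G Fs
  rw [emb_zero, map_zero, Real.zero_rpow (by linarith), mul_zero]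

lemma G_le_one {s : ℝ} (hs : 0 < s) (a : 𝓞 K) : G K s a ≤ 1 := by
  by_cases ha : a = 0
  · rw [ha, G_zero K hs]
    exact zero_le_one
  · exact Fs_le_one K hs.le (one_le_norm_emb K ha)

lemma abs_G_sub_le_two {s : ℝ} (hs : 0 < s) (a b : 𝓞 K) : |G K s a - G K s b| ≤ 2 := by
  rw [abs_le]
  constructor <;> linarith [G_nonneg K s a, G_nonneg K s b, G_le_one K hs a, G_le_one K hs b]

/-- the equivalence between integers and the integer lattice -/
noncomputable def embEquiv : 𝓞 K ≃ mixedEmbedding.integerLattice K :=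
  Equiv.ofBijective (fun a => ⟨emb K a, ⟨a, rfl⟩⟩) (by
    constructor
    · intro a b h
      exact emb_injective K (Subtype.ext_iff.mp h)
    · rintro ⟨_, ⟨a, rfl⟩⟩
      exact ⟨a, rfl⟩)

lemma finrank_integerLattice :
    finrank ℤ (mixedEmbedding.integerLattice K) = finrank ℚ K := by
  rw [ZLattice.rank ℝ, mixedEmbedding.finrank]

/-- `∑ ‖emb a‖ ^ r` converges for `r < -n`. -/
lemma summable_norm_emb_rpow {r : ℝ} (hr : r < -(finrank ℚ K : ℝ)) :
    Summable fun a : 𝓞 K => ‖emb K a‖ ^ r := by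
  have h := ZLattice.summable_norm_rpow (mixedEmbedding.integerLattice K) r
    (by rw [finrank_integerLattice]; exact hr)
  exact (embEquiv K).summable_iff.mpr h


lemma G_le {s : ℝ} (hs1 : 1 ≤ s) (hs2 : s ≤ 2) (a : 𝓞 K) :
    G K s a ≤ CE K * ‖emb K a‖ ^ (-((finrank ℚ K : ℝ) * s)) := by
  by_cases ha : a = 0
  · rw [ha, G_zero K (by linarith), emb_zero, norm_zero]
    exact mul_nonneg (CE_pos K).le (Real.rpow_nonneg le_rfl _)
  · exact Fs_le K (lt_of_lt_of_le one_pos (one_le_norm_emb K ha)) hs1 hs2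

lemma summable_G {s : ℝ} (hs1 : 1 < s) (hs2 : s ≤ 2) : Summable (G K s) := by
  have hr : -((finrank ℚ K : ℝ) * s) < -(finrank ℚ K : ℝ) := by
    have := finrank_pos_real K
    nlinarith
  exact Summable.of_nonneg_of_le (G_nonneg K s) (G_le K hs1.le hs2)
    ((summable_norm_emb_rpow K hr).mul_left _)

/-- the constant in the bound `(s - 1) * ∑ G ≤ CZ` -/
noncomputable def CZ : ℝ :=
  CE K * ((ZLattice.tsumNormRPowBound (mixedEmbedding.integerLattice K)) ^
      (-(2 * (finrank ℚ K : ℝ))) +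
    (ZLattice.tsumNormRPowBound (mixedEmbedding.integerLattice K)) ^ (-(finrank ℚ K : ℝ))) * 2

lemma CZ_nonneg : 0 ≤ CZ K := by
  unfold CZ
  have h1 := CE_pos K
  have h2 := ZLattice.tsumNormRPowBound_pos (mixedEmbedding.integerLattice K)
  have h3 := Real.rpow_nonneg h2.le (-(2 * (finrank ℚ K : ℝ)))
  have h4 := Real.rpow_nonneg h2.le (-(finrank ℚ K : ℝ))
  positivity

lemma rpow_le_add_of_mem_Icc {A : ℝ} (hA : 0 < A) {r a b : ℝ} (h1 : a ≤ r) (h2 : r ≤ b) :
    A ^ r ≤ A ^ a + A ^ b := by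
  have ha := Real.rpow_nonneg hA.le a
  have hb := Real.rpow_nonneg hA.le b
  rcases le_or_gt 1 A with h | h
  · have := Real.rpow_le_rpow_of_exponent_le h h2
    linarith
  · have := Real.rpow_le_rpow_of_exponent_ge hA h.le h1
    linarith

theorem sub_one_mul_tsum_G_le {s : ℝ} (hs1 : 1 < s) (hs2 : s ≤ 2) :
    (s - 1) * ∑' a, G K s a ≤ CZ K := by
  set n : ℝ := (finrank ℚ K : ℝ) with hn
  have hn0 : 0 < n := finrank_pos_real K
  have hn1 : 1 ≤ n := by
    rw [hn]
    exact_mod_cast finrank_pos (R := ℚ) (M := K)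
  set L := mixedEmbedding.integerLattice K with hL
  set A := ZLattice.tsumNormRPowBound L with hA
  have hA0 : 0 < A := ZLattice.tsumNormRPowBound_pos L
  have hr : -(n * s) < -(finrank ℤ L : ℝ) := by
    rw [finrank_integerLattice]
    nlinarith
  have hr' : -(n * s) < -(finrank ℚ K : ℝ) := by
    rw [← hn]; nlinarith
  -- step 1: compare with the lattice sum
  have h1 : ∑' a, G K s a ≤ CE K * ∑' a : 𝓞 K, ‖emb K a‖ ^ (-(n * s)) := by
    rw [← tsum_mul_left]
    exact Summable.tsum_le_tsum (G_le K hs1.le hs2) (summable_G K hs1 hs2)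
      ((summable_norm_emb_rpow K hr').mul_left _)
  -- step 2: lattice sum bound
  have h2 : ∑' a : 𝓞 K, ‖emb K a‖ ^ (-(n * s)) =
      ∑' z : L, ‖z‖ ^ (-(n * s)) := by
    rw [← (embEquiv K).tsum_eq]
    rfl
  have h3 : ∑' z : L, ‖z‖ ^ (-(n * s)) ≤
      A ^ (-(n * s)) * ∑' k : ℕ, (k : ℝ) ^ ((finrank ℤ L : ℝ) - 1 + -(n * s)) :=
    ZLattice.tsum_norm_rpow_le L _ hr
  have hδ : 0 < n * (s - 1) := by nlinarith
  have h4 : ∑' k : ℕ, (k : ℝ) ^ ((finrank ℤ L : ℝ) - 1 + -(n * s)) ≤ 1 + 1 / (n * (s - 1)) := by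
    have e : (finrank ℤ L : ℝ) - 1 + -(n * s) = -(1 + n * (s - 1)) := by
      rw [finrank_integerLattice, ← hn]; ring
    rw [e]
    exact tsum_nat_rpow_le hδ
  have h5 : A ^ (-(n * s)) ≤ A ^ (-(2 * n)) + A ^ (-n) :=
    rpow_le_add_of_mem_Icc hA0 (by nlinarith) (by nlinarith)
  have h6 : (s - 1) * (1 + 1 / (n * (s - 1))) ≤ 2 := by
    have hs : 0 < s - 1 := by linarith
    have e : (s - 1) * (1 + 1 / (n * (s - 1))) = (s - 1) + 1 / n := by
      field_simp
    rw [e]
    have : 1 / n ≤ 1 := by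
      rw [div_le_one hn0]; exact hn1
    linarith
  have hAr : 0 ≤ A ^ (-(n * s)) := Real.rpow_nonneg hA0.le _
  have hsum0 : 0 ≤ ∑' k : ℕ, (k : ℝ) ^ ((finrank ℤ L : ℝ) - 1 + -(n * s)) :=
    tsum_nonneg fun k => Real.rpow_nonneg (Nat.cast_nonneg k) _
  have hCE := CE_pos K
  have hs0 : 0 < s - 1 := by linarith
  calc (s - 1) * ∑' a, G K s a
      ≤ (s - 1) * (CE K * (A ^ (-(n * s)) *
          ∑' k : ℕ, (k : ℝ) ^ ((finrank ℤ L : ℝ) - 1 + -(n * s)))) := by
        gcongr
        exact h1.trans (mul_le_mul_of_nonneg_left (h2 ▸ h3) hCE.le)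
    _ ≤ (s - 1) * (CE K * ((A ^ (-(2 * n)) + A ^ (-n)) * (1 + 1 / (n * (s - 1))))) := by
        gcongr
    _ = CE K * (A ^ (-(2 * n)) + A ^ (-n)) * ((s - 1) * (1 + 1 / (n * (s - 1)))) := by ring
    _ ≤ CE K * (A ^ (-(2 * n)) + A ^ (-n)) * 2 := by
        have h7 : 0 ≤ CE K * (A ^ (-(2 * n)) + A ^ (-n)) := by
          have := Real.rpow_nonneg hA0.le (-(2 * n))
          have := Real.rpow_nonneg hA0.le (-n)
          positivity
        exact mul_le_mul_of_nonneg_left h6 h7
    _ = CZ K := rfl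


/-! ### The dominating function for differences -/

/-- the coefficient of the dominating function -/
noncomputable def domCoeff (t : 𝓞 K) : ℝ :=
  2 * (‖emb K t‖ / epsD K) ^ (finrank ℚ K + 1) + CD K * ‖emb K t‖

lemma domCoeff_nonneg (t : 𝓞 K) : 0 ≤ domCoeff K t := by
  unfold domCoeff
  have h1 := (epsD_pos K).le
  have h2 := CD_nonneg K
  positivity

/-- dominating function for `a ↦ |G s (a + t) - G s a|`, independent of `s ∈ [1,2]` -/
noncomputable def Dom (t a : 𝓞 K) : ℝ :=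
  2 * (if a = 0 then 1 else 0) + domCoeff K t * ‖emb K a‖ ^ (-((finrank ℚ K : ℝ) + 1))

lemma Dom_nonneg (t a : 𝓞 K) : 0 ≤ Dom K t a := by
  unfold Dom
  have h1 := domCoeff_nonneg K t
  have h2 : 0 ≤ ‖emb K a‖ ^ (-((finrank ℚ K : ℝ) + 1)) := Real.rpow_nonneg (norm_nonneg _) _
  have h3 : (0 : ℝ) ≤ if a = 0 then 1 else 0 := by split_ifs <;> norm_num
  positivity

lemma summable_Dom (t : 𝓞 K) : Summable (Dom K t) := by
  unfold Dom
  refine Summable.add (Summable.mul_left _ ?_) (Summable.mul_left _ ?_)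
  · exact (hasSum_ite_eq (0 : 𝓞 K) (1 : ℝ)).summable
  · exact summable_norm_emb_rpow K (by linarith)

lemma rpow_neg_eq_inv_pow {x : ℝ} (hx : 0 ≤ x) (n : ℕ) :
    x ^ (-((n : ℝ) + 1)) = (x ^ (n + 1))⁻¹ := by
  rw [Real.rpow_neg hx, ← Nat.cast_succ, Real.rpow_natCast]

theorem abs_G_add_sub_le {s : ℝ} (hs1 : 1 ≤ s) (hs2 : s ≤ 2) (t a : 𝓞 K) :
    |G K s (a + t) - G K s a| ≤ Dom K t a := by
  have hs0 : 0 < s := by linarith
  by_cases ha : a = 0
  · subst ha
    unfold Dom
    rw [if_pos rfl, emb_zero, norm_zero, Real.zero_rpow (by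
      have := finrank_pos_real K
      linarith), mul_zero, add_zero, mul_one]
    exact abs_G_sub_le_two K hs0 _ _
  · unfold Dom
    rw [if_neg ha, mul_zero, zero_add]
    have hapos : 0 < ‖emb K a‖ := by
      rw [norm_pos_iff, Ne, emb_eq_zero_iff]
      exact ha
    rw [rpow_neg_eq_inv_pow hapos.le]
    have hpow : 0 < ‖emb K a‖ ^ (finrank ℚ K + 1) := by positivity
    have hε := epsD_pos K
    rcases lt_or_ge ‖emb K a‖ (‖emb K t‖ / epsD K) with hlt | hge
    · -- small `a`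
      have h1 : (1 : ℝ) ≤ (‖emb K t‖ / epsD K) ^ (finrank ℚ K + 1) *
          (‖emb K a‖ ^ (finrank ℚ K + 1))⁻¹ := by
        rw [← div_eq_mul_inv, le_div_iff₀ hpow, one_mul]
        gcongr
      have h2 : 0 ≤ CD K * ‖emb K t‖ * (‖emb K a‖ ^ (finrank ℚ K + 1))⁻¹ := by
        have := CD_nonneg K
        positivity
      calc |G K s (a + t) - G K s a| ≤ 2 := abs_G_sub_le_two K hs0 _ _
        _ ≤ 2 * ((‖emb K t‖ / epsD K) ^ (finrank ℚ K + 1) *
            (‖emb K a‖ ^ (finrank ℚ K + 1))⁻¹) := by linarith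
        _ ≤ domCoeff K t * (‖emb K a‖ ^ (finrank ℚ K + 1))⁻¹ := by
            unfold domCoeff
            linarith
    · -- large `a`
      have hta : ‖emb K t‖ ≤ epsD K * ‖emb K a‖ := by
        rwa [div_le_iff₀' hε] at hge
      have hat : a + t ≠ 0 := by
        intro h0
        have h1 : emb K t = -emb K a := by
          have := emb_add K a t
          rw [h0, emb_zero] at this
          exact eq_neg_of_add_eq_zero_right this.symm
        rw [h1, norm_neg] at hta
        have := epsD_le K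
        nlinarith
      have hd := diff_bound K (one_le_norm_emb K ha) (one_le_norm_emb K hat)
        (by rw [emb_add, add_sub_cancel_left]; exact hta) hs1 hs2
      rw [emb_add, add_sub_cancel_left, ← emb_add] at hd
      refine hd.trans ?_
      rw [div_eq_mul_inv]
      gcongr
      unfold domCoeff
      have : 0 ≤ 2 * (‖emb K t‖ / epsD K) ^ (finrank ℚ K + 1) := by positivity
      linarith

/-! ### Coset decomposition -/

section coset

variable {K}
variable (J : Ideal (𝓞 K))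

/-- `𝓞 K ≃ (𝓞 K ⧸ J) × J` -/
noncomputable def cosetEquiv : 𝓞 K ≃ (𝓞 K ⧸ J) × J where
  toFun a := (Ideal.Quotient.mk J a, ⟨a - Quotient.out (Ideal.Quotient.mk J a), by
    rw [← Ideal.Quotient.eq, Ideal.Quotient.mk_out]⟩)
  invFun p := Quotient.out p.1 + p.2
  left_inv a := by simp
  right_inv p := by
    obtain ⟨q, b⟩ := p
    have h1 : Ideal.Quotient.mk J (Quotient.out q + (b : 𝓞 K)) = q := by
      rw [map_add, Ideal.Quotient.mk_out, Ideal.Quotient.eq_zero_iff_mem.mpr b.2, add_zero]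
    ext
    · exact h1
    · simp only [h1, add_sub_cancel_left]

omit [NumberField K] in
lemma cosetEquiv_symm_apply (p : (𝓞 K ⧸ J) × J) :
    (cosetEquiv J).symm p = Quotient.out p.1 + (p.2 : 𝓞 K) := rfl

variable {J}

theorem tsum_sub_card_mul_tsum (hJ : J ≠ ⊥) {f : 𝓞 K → ℝ} (hf : Summable f) :
    ∑' a, f a - (Ideal.absNorm J : ℝ) * ∑' b : J, f b =
      ∑ᶠ q : 𝓞 K ⧸ J, ∑' b : J, (f (Quotient.out q + b) - f b) := by
  have : Finite (𝓞 K ⧸ J) := Ideal.finiteQuotientOfFreeOfNeBot J hJ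
  have : Fintype (𝓞 K ⧸ J) := Fintype.ofFinite _
  have hsub : Summable fun b : J => f b := hf.subtype _
  have hprod : Summable fun p : (𝓞 K ⧸ J) × J => f (Quotient.out p.1 + p.2) := by
    have := (cosetEquiv J).symm.summable_iff.mpr hf
    exact this
  have hq : ∀ q : 𝓞 K ⧸ J, Summable fun b : J => f (Quotient.out q + b) :=
    fun q => hprod.prod_factor q
  have h1 : ∑' a, f a = ∑ q : 𝓞 K ⧸ J, ∑' b : J, f (Quotient.out q + b) := by
    rw [← (cosetEquiv J).symm.tsum_eq]
    simp only [cosetEquiv_symm_apply]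
    rw [Summable.tsum_prod' hprod hq, tsum_fintype]
  have h2 : (Ideal.absNorm J : ℝ) * ∑' b : J, f b = ∑ q : 𝓞 K ⧸ J, ∑' b : J, f b := by
    rw [Finset.sum_const, Finset.card_univ, nsmul_eq_mul, Ideal.absNorm_apply,
      Submodule.cardQuot_apply, Nat.card_eq_fintype_card]
  rw [finsum_eq_sum_of_fintype, h1, h2, ← Finset.sum_sub_distrib]
  refine Finset.sum_congr rfl fun q _ => ?_
  rw [(hq q).tsum_sub hsub]

end coset

/-- the bound for the coset comparison -/
noncomputable def BJ (J : Ideal (𝓞 K)) : ℝ :=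
  ∑ᶠ q : 𝓞 K ⧸ J, ∑' a : 𝓞 K, Dom K (Quotient.out q) a

theorem abs_tsum_sub_card_mul_tsum_le {J : Ideal (𝓞 K)} (hJ : J ≠ ⊥) {s : ℝ} (hs1 : 1 < s)
    (hs2 : s ≤ 2) :
    |∑' a, G K s a - (Ideal.absNorm J : ℝ) * ∑' b : J, G K s b| ≤ BJ K J := by
  have : Finite (𝓞 K ⧸ J) := Ideal.finiteQuotientOfFreeOfNeBot J hJ
  have : Fintype (𝓞 K ⧸ J) := Fintype.ofFinite _
  rw [tsum_sub_card_mul_tsum hJ (summable_G K hs1 hs2), BJ, finsum_eq_sum_of_fintype,
    finsum_eq_sum_of_fintype]
  refine (Finset.abs_sum_le_sum_abs _ _).trans (Finset.sum_le_sum fun q _ => ?_)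
  have hD : Summable fun b : J => Dom K (Quotient.out q) b := (summable_Dom K _).subtype _
  have hle : ∀ b : J, |G K s (Quotient.out q + b) - G K s b| ≤ Dom K (Quotient.out q) b := by
    intro b
    have := abs_G_add_sub_le K hs1.le hs2 (Quotient.out q) (b : 𝓞 K)
    rwa [add_comm] at this
  have hsum : Summable fun b : J => G K s (Quotient.out q + b) - G K s b :=
    Summable.of_norm_bounded hD (fun b => by rw [Real.norm_eq_abs]; exact hle b)
  calc |∑' b : J, (G K s (Quotient.out q + b) - G K s b)|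
      ≤ ∑' b : J, |G K s (Quotient.out q + b) - G K s b| := by
        rw [← Real.norm_eq_abs]
        refine (norm_tsum_le_tsum_norm ?_).trans (le_of_eq ?_)
        · exact hsum.norm
        · rfl
    _ ≤ ∑' b : J, Dom K (Quotient.out q) b :=
        Summable.tsum_le_tsum hle hsum.abs hD
    _ ≤ ∑' a : 𝓞 K, Dom K (Quotient.out q) a :=
        Summable.tsum_subtype_le _ _ (Dom_nonneg K _) (summable_Dom K _)

end Fermat.Agent.S14.H839
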