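import Mathlib
import Fermat.Agent.S14.H839.LatticeSums

/-!
# S14 / N1 (helper839): partial zeta functions as lattice sums
-/

set_option autoImplicit false

open NumberField NumberField.mixedEmbedding NumberField.Units
  NumberField.Units.dirichletUnitTheorem NumberField.InfinitePlace Module

open scoped nonZeroDivisors

namespace Fermat.Agent.S14.H839

variable (K : Type*) [Field K] [NumberField K]

open scoped Classical

/-- ideals in a given class -/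
abbrev ClassIdeals (C : ClassGroup (𝓞 K)) : Type _ :=
  {I : (Ideal (𝓞 K))⁰ // ClassGroup.mk0 I = C}

variable {K}
variable {C : ClassGroup (𝓞 K)} {J : (Ideal (𝓞 K))⁰}

lemma isPrincipal_mul (hJ : ClassGroup.mk0 J = C⁻¹) (I : ClassIdeals K C) :
    ((J : Ideal (𝓞 K)) * (I.1 : Ideal (𝓞 K))).IsPrincipal := by
  have h : ClassGroup.mk0 (J * I.1) = 1 := by
    rw [map_mul, hJ, I.2, inv_mul_cancel]
  have hmem : ((J : Ideal (𝓞 K)) * (I.1 : Ideal (𝓞 K))) ∈ (Ideal (𝓞 K))⁰ := (J * I.1).2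
  exact (ClassGroup.mk0_eq_one_iff hmem).mp h

/-- a generator of `J * I` -/
noncomputable def gen (hJ : ClassGroup.mk0 J = C⁻¹) (I : ClassIdeals K C) : 𝓞 K :=
  haveI := isPrincipal_mul hJ I
  Submodule.IsPrincipal.generator ((J : Ideal (𝓞 K)) * (I.1 : Ideal (𝓞 K)))

lemma span_gen (hJ : ClassGroup.mk0 J = C⁻¹) (I : ClassIdeals K C) :
    Ideal.span {gen hJ I} = (J : Ideal (𝓞 K)) * (I.1 : Ideal (𝓞 K)) := by
  haveI := isPrincipal_mul hJ I
  exact Ideal.span_singleton_generator _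

lemma coe_ne_bot (I : (Ideal (𝓞 K))⁰) : (I : Ideal (𝓞 K)) ≠ ⊥ :=
  nonZeroDivisors.coe_ne_zero I

lemma gen_ne_zero (hJ : ClassGroup.mk0 J = C⁻¹) (I : ClassIdeals K C) : gen hJ I ≠ 0 := by
  intro h
  have := span_gen hJ I
  rw [h, Ideal.span_singleton_zero] at this
  exact mul_ne_zero (coe_ne_bot J) (coe_ne_bot I.1) this.symm

lemma gen_mem (hJ : ClassGroup.mk0 J = C⁻¹) (I : ClassIdeals K C) :
    gen hJ I ∈ (J : Ideal (𝓞 K)) := by
  have h1 : gen hJ I ∈ Ideal.span {gen hJ I} := Ideal.mem_span_singleton_self _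
  rw [span_gen hJ I] at h1
  exact Ideal.mul_le_left h1

/-- the parametrisation of `J` by (ideal in the class, unit) -/
noncomputable def param (hJ : ClassGroup.mk0 J = C⁻¹) (p : ClassIdeals K C × (𝓞 K)ˣ) :
    (J : Ideal (𝓞 K)) :=
  ⟨(p.2 : 𝓞 K) * gen hJ p.1, Ideal.mul_mem_left _ _ (gen_mem hJ p.1)⟩

lemma span_param (hJ : ClassGroup.mk0 J = C⁻¹) (p : ClassIdeals K C × (𝓞 K)ˣ) :
    Ideal.span {((param hJ p : (J : Ideal (𝓞 K))) : 𝓞 K)} =
      (J : Ideal (𝓞 K)) * (p.1.1 : Ideal (𝓞 K)) := by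
  unfold param
  rw [Ideal.span_singleton_mul_left_unit p.2.isUnit, span_gen]

lemma param_injective (hJ : ClassGroup.mk0 J = C⁻¹) : Function.Injective (param hJ) := by
  rintro ⟨I, u⟩ ⟨I', u'⟩ h
  have h1 := span_param hJ (I, u)
  have h2 := span_param hJ (I', u')
  rw [h] at h1
  have h3 : (I.1 : Ideal (𝓞 K)) = (I'.1 : Ideal (𝓞 K)) :=
    mul_left_cancel₀ (coe_ne_bot J) (h1.symm.trans h2)
  have hI : I = I' := Subtype.ext (Subtype.ext h3)
  subst hI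
  have h4 : (u : 𝓞 K) * gen hJ I = (u' : 𝓞 K) * gen hJ I := congrArg Subtype.val h
  have h5 : (u : 𝓞 K) = u' := mul_right_cancel₀ (gen_ne_zero hJ I) h4
  rw [Units.ext h5]

lemma param_ne_zero (hJ : ClassGroup.mk0 J = C⁻¹) (p : ClassIdeals K C × (𝓞 K)ˣ) :
    param hJ p ≠ 0 := by
  intro h
  have := congrArg Subtype.val h
  simp only [param, ZeroMemClass.coe_zero, mul_eq_zero, Units.ne_zero, false_or] at this
  exact gen_ne_zero hJ p.1 this

lemma mem_range_param (hJ : ClassGroup.mk0 J = C⁻¹) {b : (J : Ideal (𝓞 K))} (hb : b ≠ 0) :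
    b ∈ Set.range (param hJ) := by
  have hb0 : (b : 𝓞 K) ≠ 0 := fun h => hb (Subtype.ext h)
  have hle : Ideal.span {(b : 𝓞 K)} ≤ (J : Ideal (𝓞 K)) :=
    (Ideal.span_singleton_le_iff_mem _).mpr b.2
  obtain ⟨I₀, hI₀⟩ := Ideal.dvd_iff_le.mpr hle
  have hI₀ne : I₀ ≠ ⊥ := by
    rintro rfl
    rw [Ideal.mul_bot, Ideal.span_singleton_eq_bot] at hI₀
    exact hb0 hI₀
  have hI₀mem : I₀ ∈ (Ideal (𝓞 K))⁰ := mem_nonZeroDivisors_iff_ne_zero.mpr hI₀ne
  have hspan_mem : Ideal.span {(b : 𝓞 K)} ∈ (Ideal (𝓞 K))⁰ :=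
    mem_nonZeroDivisors_iff_ne_zero.mpr (by
      rw [Ne, Ideal.zero_eq_bot, Ideal.span_singleton_eq_bot]; exact hb0)
  have hclass : ClassGroup.mk0 ⟨I₀, hI₀mem⟩ = C := by
    have h1 : ClassGroup.mk0 ⟨Ideal.span {(b : 𝓞 K)}, hspan_mem⟩ = 1 :=
      (ClassGroup.mk0_eq_one_iff hspan_mem).mpr ⟨⟨b, rfl⟩⟩
    have h2 : (⟨Ideal.span {(b : 𝓞 K)}, hspan_mem⟩ : (Ideal (𝓞 K))⁰) = J * ⟨I₀, hI₀mem⟩ :=
      Subtype.ext hI₀
    rw [h2, map_mul, hJ] at h1
    exact (inv_mul_eq_one.mp h1).symm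
  let I : ClassIdeals K C := ⟨⟨I₀, hI₀mem⟩, hclass⟩
  have h3 : Ideal.span {gen hJ I} = Ideal.span {(b : 𝓞 K)} := by
    rw [span_gen, hI₀]
  obtain ⟨u, hu⟩ := Ideal.span_singleton_eq_span_singleton.mp h3
  refine ⟨(I, u), Subtype.ext ?_⟩
  simp only [param]
  rw [mul_comm]
  exact hu


lemma norm_emb_gen (hJ : ClassGroup.mk0 J = C⁻¹) (I : ClassIdeals K C) :
    mixedEmbedding.norm (emb K (gen hJ I)) =
      (Ideal.absNorm (J : Ideal (𝓞 K)) : ℝ) * (Ideal.absNorm (I.1 : Ideal (𝓞 K)) : ℝ) := by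
  rw [norm_emb, span_gen, map_mul, Nat.cast_mul]

lemma hasSum_G_param (hJ : ClassGroup.mk0 J = C⁻¹) (s : ℝ) (I : ClassIdeals K C) :
    HasSum (fun u : (𝓞 K)ˣ => G K s (param hJ (I, u)))
      ((torsionOrder K : ℝ) * ((Ideal.absNorm (J : Ideal (𝓞 K)) : ℝ) *
        (Ideal.absNorm (I.1 : Ideal (𝓞 K)) : ℝ)) ^ (-s)) := by
  have hx : mixedEmbedding.norm (emb K (gen hJ I)) ≠ 0 := by
    have := one_le_norm_emb K (gen_ne_zero hJ I)
    linarith
  have h := (hasSum_cutoff_unit_smul K hx).mul_right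
    ((mixedEmbedding.norm (emb K (gen hJ I))) ^ (-s))
  rw [norm_emb_gen hJ I] at h
  have e : (fun u : (𝓞 K)ˣ => G K s (param hJ (I, u))) =
      fun u : (𝓞 K)ˣ => cutoff K (u • emb K (gen hJ I)) *
        ((Ideal.absNorm (J : Ideal (𝓞 K)) : ℝ) *
          (Ideal.absNorm (I.1 : Ideal (𝓞 K)) : ℝ)) ^ (-s) := by
    funext u
    unfold G Fs param
    simp only
    rw [emb_unit_mul, norm_unit_smul, norm_emb_gen hJ I]
  rw [e]
  exact h

/-- the zeta function of an ideal class as a real series -/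
noncomputable def classZeta (C : ClassGroup (𝓞 K)) (s : ℝ) : ℝ :=
  ∑' I : ClassIdeals K C, (Ideal.absNorm (I.1 : Ideal (𝓞 K)) : ℝ) ^ (-s)

theorem tsum_G_ideal_eq (hJ : ClassGroup.mk0 J = C⁻¹) {s : ℝ} (hs1 : 1 < s) (hs2 : s ≤ 2) :
    ∑' b : (J : Ideal (𝓞 K)), G K s b =
      (torsionOrder K : ℝ) * (Ideal.absNorm (J : Ideal (𝓞 K)) : ℝ) ^ (-s) * classZeta C s := by
  have hsum : Summable fun b : (J : Ideal (𝓞 K)) => G K s b :=
    (summable_G K hs1 hs2).subtype _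
  have hsupp : Function.support (fun b : (J : Ideal (𝓞 K)) => G K s b) ⊆
      Set.range (param hJ) := by
    intro b hb
    apply mem_range_param hJ
    rintro rfl
    exact hb (G_zero K (by linarith))
  have h1 : ∑' p, G K s (param hJ p) = ∑' b : (J : Ideal (𝓞 K)), G K s b :=
    (param_injective hJ).tsum_eq hsupp
  have h2 : Summable fun p : ClassIdeals K C × (𝓞 K)ˣ => G K s (param hJ p) :=
    hsum.comp_injective (param_injective hJ)
  rw [← h1, Summable.tsum_prod' h2 (fun I => (hasSum_G_param hJ s I).summable)]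
  simp_rw [(hasSum_G_param hJ s _).tsum_eq]
  unfold classZeta
  rw [← tsum_mul_left]
  refine tsum_congr fun I => ?_
  rw [Real.mul_rpow (Nat.cast_nonneg _) (Nat.cast_nonneg _)]
  ring

end Fermat.Agent.S14.H839
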