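import Mathlib
import Fermat.Agent.S14.H839.IdealSums

/-!
# S14 / N1 (helper839): differences of partial zeta functions are bounded near `s = 1`

Main result: `Fermat.Agent.S14.H839.classZeta_sub_bounded`.
-/

set_option autoImplicit false

open NumberField NumberField.mixedEmbedding NumberField.Units
  NumberField.Units.dirichletUnitTheorem NumberField.InfinitePlace Module

open scoped nonZeroDivisors

namespace Fermat.Agent.S14.H839

variable {K : Type*} [Field K] [NumberField K]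

open scoped Classical

lemma abs_mul_sub_le {N X S B Z s : ℝ} (hN : 1 ≤ N) (hs1 : 1 < s) (hs2 : s ≤ 2)
    (hX : 0 ≤ X) (hS : 0 ≤ S) (hB : |S - X| ≤ B) (hZ : (s - 1) * S ≤ Z) :
    |N ^ (s - 1) * X - S| ≤ (N - 1) * (Z + B) + B := by
  have hB0 : 0 ≤ B := (abs_nonneg _).trans hB
  have hN0 : 0 < N := by linarith
  have hp1 : 1 ≤ N ^ (s - 1) := Real.one_le_rpow hN (by linarith)
  have hp2 : N ^ (s - 1) ≤ 1 + (s - 1) * (N - 1) := by
    have := rpow_one_add_le_one_add_mul_self (s := N - 1) (by linarith)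
      (p := s - 1) (by linarith) (by linarith)
    simpa using this
  have hp3 : N ^ (s - 1) ≤ N := by
    have := Real.rpow_le_rpow_of_exponent_le hN (show s - 1 ≤ 1 by linarith)
    rwa [Real.rpow_one] at this
  have hXle : X ≤ S + B := by
    have := (abs_le.mp hB).1
    linarith
  have e : N ^ (s - 1) * X - S = (N ^ (s - 1) - 1) * X + (X - S) := by ring
  rw [e]
  refine (abs_add_le _ _).trans ?_
  rw [abs_sub_comm X S, abs_mul, abs_of_nonneg (by linarith : 0 ≤ N ^ (s - 1) - 1),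
    abs_of_nonneg hX]
  have h1 : (N ^ (s - 1) - 1) * X ≤ (N ^ (s - 1) - 1) * S + (N ^ (s - 1) - 1) * B := by
    have := mul_le_mul_of_nonneg_left hXle (by linarith : 0 ≤ N ^ (s - 1) - 1)
    linarith
  have h2 : (N ^ (s - 1) - 1) * S ≤ (N - 1) * Z := by
    calc (N ^ (s - 1) - 1) * S ≤ ((s - 1) * (N - 1)) * S :=
          mul_le_mul_of_nonneg_right (by linarith) hS
      _ = (N - 1) * ((s - 1) * S) := by ring
      _ ≤ (N - 1) * Z := mul_le_mul_of_nonneg_left hZ (by linarith)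
  have h3 : (N ^ (s - 1) - 1) * B ≤ (N - 1) * B :=
    mul_le_mul_of_nonneg_right (by linarith) hB0
  have : (N - 1) * (Z + B) = (N - 1) * Z + (N - 1) * B := by ring
  linarith

/-- the error constant attached to an ideal -/
noncomputable def EJ (J : (Ideal (𝓞 K))⁰) : ℝ :=
  ((Ideal.absNorm (J : Ideal (𝓞 K)) : ℝ) - 1) * (CZ K + BJ K (J : Ideal (𝓞 K))) +
    BJ K (J : Ideal (𝓞 K))

theorem abs_torsion_mul_classZeta_sub_le {C : ClassGroup (𝓞 K)} {J : (Ideal (𝓞 K))⁰}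
    (hJ : ClassGroup.mk0 J = C⁻¹) {s : ℝ} (hs1 : 1 < s) (hs2 : s ≤ 2) :
    |(torsionOrder K : ℝ) * classZeta C s - ∑' a, G K s a| ≤ EJ J := by
  have hJne : (J : Ideal (𝓞 K)) ≠ ⊥ := coe_ne_bot J
  have hNpos : 0 < Ideal.absNorm (J : Ideal (𝓞 K)) :=
    Nat.pos_of_ne_zero (by rw [Ne, Ideal.absNorm_eq_zero_iff]; exact hJne)
  have hN1 : (1 : ℝ) ≤ (Ideal.absNorm (J : Ideal (𝓞 K)) : ℝ) := by exact_mod_cast hNpos
  have hN0 : (0 : ℝ) < (Ideal.absNorm (J : Ideal (𝓞 K)) : ℝ) := by linarith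
  have h1 := tsum_G_ideal_eq hJ hs1 hs2
  have h2 := abs_tsum_sub_card_mul_tsum_le K hJne hs1 hs2
  have h3 := sub_one_mul_tsum_G_le K hs1 hs2
  have hS : 0 ≤ ∑' a, G K s a := tsum_nonneg (G_nonneg K s)
  have hSJ : 0 ≤ ∑' b : (J : Ideal (𝓞 K)), G K s b := tsum_nonneg fun b => G_nonneg K s b
  have key : (torsionOrder K : ℝ) * classZeta C s =
      (Ideal.absNorm (J : Ideal (𝓞 K)) : ℝ) ^ (s - 1) *
        ((Ideal.absNorm (J : Ideal (𝓞 K)) : ℝ) * ∑' b : (J : Ideal (𝓞 K)), G K s b) := by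
    rw [h1]
    have e : (Ideal.absNorm (J : Ideal (𝓞 K)) : ℝ) ^ (s - 1) *
        ((Ideal.absNorm (J : Ideal (𝓞 K)) : ℝ) *
          ((torsionOrder K : ℝ) * (Ideal.absNorm (J : Ideal (𝓞 K)) : ℝ) ^ (-s) * classZeta C s)) =
        ((Ideal.absNorm (J : Ideal (𝓞 K)) : ℝ) ^ (s - 1) *
          (Ideal.absNorm (J : Ideal (𝓞 K)) : ℝ) ^ (1 : ℝ) *
          (Ideal.absNorm (J : Ideal (𝓞 K)) : ℝ) ^ (-s)) *
          ((torsionOrder K : ℝ) * classZeta C s) := by
      rw [Real.rpow_one]; ring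
    rw [e, ← Real.rpow_add hN0, ← Real.rpow_add hN0]
    have : s - 1 + 1 + -s = 0 := by ring
    rw [this, Real.rpow_zero, one_mul]
  rw [key, EJ]
  exact abs_mul_sub_le hN1 hs1 hs2 (mul_nonneg hN0.le hSJ) hS h2 h3

/-- **N1.** For any two ideal classes `C`, `C'` of a number field, the difference of the partial
zeta functions `∑_{I ∈ C} N(I)^(-s) - ∑_{I ∈ C'} N(I)^(-s)` is bounded on `(1, 2]`. -/
theorem classZeta_sub_bounded (C C' : ClassGroup (𝓞 K)) :
    ∃ B : ℝ, ∀ s : ℝ, 1 < s → s ≤ 2 →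
      |(∑' I : {I : (Ideal (𝓞 K))⁰ // ClassGroup.mk0 I = C},
          (Ideal.absNorm (I.1 : Ideal (𝓞 K)) : ℝ) ^ (-s)) -
        ∑' I : {I : (Ideal (𝓞 K))⁰ // ClassGroup.mk0 I = C'},
          (Ideal.absNorm (I.1 : Ideal (𝓞 K)) : ℝ) ^ (-s)| ≤ B := by
  obtain ⟨J, hJ⟩ := ClassGroup.mk0_surjective C⁻¹
  obtain ⟨J', hJ'⟩ := ClassGroup.mk0_surjective C'⁻¹
  have hw : (0 : ℝ) < torsionOrder K := by exact_mod_cast torsionOrder_pos K
  refine ⟨(EJ J + EJ J') / torsionOrder K, fun s hs1 hs2 => ?_⟩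
  have h1 := abs_torsion_mul_classZeta_sub_le hJ hs1 hs2
  have h2 := abs_torsion_mul_classZeta_sub_le hJ' hs1 hs2
  change |classZeta C s - classZeta C' s| ≤ _
  rw [le_div_iff₀ hw]
  have e : |classZeta C s - classZeta C' s| * (torsionOrder K : ℝ) =
      |((torsionOrder K : ℝ) * classZeta C s - ∑' a, G K s a) -
        ((torsionOrder K : ℝ) * classZeta C' s - ∑' a, G K s a)| := by
    rw [← abs_of_pos hw, ← abs_mul, abs_of_pos hw]
    congr 1
    ring
  rw [e]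
  exact (abs_sub _ _).trans (add_le_add h1 h2)

end Fermat.Agent.S14.H839
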